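import Fermat.Agent.HW.Char2.Basic

/-!
# HW brick at `p = 2`: counting points over `ZMod 2` (helper51)
-/

set_option autoImplicit false

open WeierstrassCurve WeierstrassCurve.Affine

namespace Fermat.Agent.HW.Char2

/-- decidable form of nonsingularity over `ZMod 2` -/
def NsgPred (W : WeierstrassCurve (ZMod 2)) (xy : ZMod 2 × ZMod 2) : Prop :=
  (xy.2 ^ 2 + W.a₁ * xy.1 * xy.2 + W.a₃ * xy.2
      = xy.1 ^ 3 + W.a₂ * xy.1 ^ 2 + W.a₄ * xy.1 + W.a₆) ∧
  (W.a₁ * xy.2 ≠ 3 * xy.1 ^ 2 + 2 * W.a₂ * xy.1 + W.a₄ ∨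
    xy.2 ≠ -xy.2 - W.a₁ * xy.1 - W.a₃)

instance (W : WeierstrassCurve (ZMod 2)) : DecidablePred (NsgPred W) := fun _ => by
  unfold NsgPred
  infer_instance

theorem nsg_iff (W : WeierstrassCurve (ZMod 2)) (xy : ZMod 2 × ZMod 2) :
    W.toAffine.Nonsingular xy.1 xy.2 ↔ NsgPred W xy := by
  rw [nonsingular_iff, equation_iff]
  rfl

theorem card_point_two (W : WeierstrassCurve (ZMod 2)) :
    Nat.card W.toAffine.Point = 1 + (Finset.univ.filter (NsgPred W)).card := by
  rw [Nat.card_congr (Count.pointEquiv W)]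
  have e : {xy : ZMod 2 × ZMod 2 // W.toAffine.Nonsingular xy.1 xy.2} ≃
      {xy : ZMod 2 × ZMod 2 // NsgPred W xy} :=
    Equiv.subtypeEquivRight (nsg_iff W)
  rw [Nat.card_congr (Equiv.optionCongr e), Nat.card_eq_fintype_card, Fintype.card_option,
    Fintype.card_subtype, add_comm]

theorem trace_two (W : WeierstrassCurve (ZMod 2)) :
    W.traceOfFrobenius = 2 - ((Finset.univ.filter (NsgPred W)).card : ℤ) := by
  rw [WeierstrassCurve.traceOfFrobenius, WeierstrassCurve.card, card_point_two,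
    Nat.card_eq_fintype_card, ZMod.card]
  push_cast
  ring

theorem zmod2_cases (a : ZMod 2) : a = 0 ∨ a = 1 := by
  revert a
  decide

example : (Finset.univ.filter (NsgPred ⟨0, 0, 1, 0, 0⟩)).card = 2 := by decide
example : WeierstrassCurve.Δ (⟨0, 0, 0, 0, 0⟩ : WeierstrassCurve (ZMod 2)) = 0 := by decide

end Fermat.Agent.HW.Char2
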