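import Fermat.Agent.HW.Char2.Basic

/-!
# HW brick at `p = 2`: the ordinary curves `y² + xy + a₃y = x³ + a₂x² + a₄x + a₆` (GENERATED, helper51)
-/

set_option autoImplicit false
set_option maxHeartbeats 3200000
set_option linter.unusedSimpArgs false
set_option linter.unusedVariables false

open WeierstrassCurve WeierstrassCurve.Affine

namespace Fermat.Agent.HW.Char2

variable {K : Type*} [Field K] [DecidableEq K]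

theorem ord_10001 (E : WeierstrassCurve K) (h2 : (2 : K) = 0)
    (ha1 : E.a₁ = 1) (ha2 : E.a₂ = 0) (ha3 : E.a₃ = 0) (ha4 : E.a₄ = 0) (ha6 : E.a₆ = 1)
    {x y : K} (h : E.toAffine.Nonsingular x y) (hx0 : x ≠ 0) (hx1 : x ≠ 1)
    (hφ : E.toAffine.Nonsingular (x ^ 2) (y ^ 2))
    (h4 : E.toAffine.Nonsingular (x ^ 4) (y ^ 4)) :
    Point.some (x ^ 4) (y ^ 4) h4 + Point.some (x ^ 2) (y ^ 2) hφ + (Point.some x y h + Point.some x y h) = 0 := by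
  have hF := (equation_iff x y).mp h.1
  rw [ha1, ha2, ha3, ha4, ha6] at hF
  have hη : y - E.toAffine.negY x y ≠ 0 := by
    intro h0
    apply hx0
    simp only [negY, ha1, ha3] at h0
    linear_combination h0 - y * h2
  have hd : x ^ 4 - x ^ 2 ≠ 0 := by
    intro h0
    have h3 : x ^ 2 * (x - 1) ^ 2 = 0 := by linear_combination h0 - (x ^ 2 * (x - 1)) * h2
    rcases mul_eq_zero.mp h3 with h5 | h5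
    · exact hx0 (pow_eq_zero_iff (two_ne_zero) |>.mp h5)
    · exact hx1 (sub_eq_zero.mp (pow_eq_zero_iff (two_ne_zero) |>.mp h5))
  obtain ⟨L, hL⟩ : ∃ L : K, L * (y - E.toAffine.negY x y)
      = 3 * x ^ 2 + 2 * E.a₂ * x + E.a₄ - E.a₁ * y := ⟨_, div_mul_cancel₀ _ hη⟩
  obtain ⟨M, hM⟩ : ∃ M : K, M * (x ^ 4 - x ^ 2) = y ^ 4 - y ^ 2 := ⟨_, div_mul_cancel₀ _ hd⟩
  obtain ⟨hC, e2⟩ := add_self_some h hη hL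
  obtain ⟨hS, eS⟩ := add_some_some h4 _ hd hM
  rw [e2, eS]
  simp only [negY, ha1, ha2, ha3, ha4] at hL hM
  refine Point.add_of_Y_eq ?_ ?_
  ·
    have key : (y - E.toAffine.negY x y) ^ 2 * (x ^ 4 - x ^ 2) ^ 2 * (E.toAffine.addX (x ^ 4) (x ^ 2) M - (E.toAffine.addX x x L)) = 0 := by
      simp only [addX, addY, negAddY, negY, ha1, ha2, ha3, ha4]
      linear_combination (25*x^11 - 12*x^10*y + 34*x^10 + 4*x^9*y^2 - 19*x^9*y + 30*x^9 + 13*x^8*y^2 - 12*x^8*y + 52*x^8 - 8*x^7*y^3 + 11*x^7*y^2 - 22*x^7*y + 21*x^7 + 4*x^6*y^4 - 6*x^6*y^3 + 6*x^6*y^2 - 22*x^6*y + 8*x^6 + 5*x^5*y^4 - x^5*y^3 + 12*x^5*y^2 - 9*x^5*y + 32*x^5 - 4*x^4*y^5 + 5*x^4*y^4 - 8*x^4*y^3 + 4*x^4*y^2 - 8*x^4*y + 10*x^4 + 4*x^3*y^6 - x^3*y^5 - 4*x^3*y^3 - 4*x^3*y + x^2*y^6 - x^2*y^4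 + 4*x^2*y^2 + 4*x^2 - 4*x*y^5 + 4*y^8 - 4*y^6) * hF + (12*x^14 - 8*x^13*y + 17*x^13 - 22*x^12*y + 11*x^12 - 21*x^11*y + 38*x^11 - 28*x^10*y + 37*x^10 - 44*x^9*y + 20*x^9 - 29*x^8*y + 37*x^8 - 22*x^7*y + 15*x^7 - 25*x^6*y + 4*x^6 - 9*x^5*y + 18*x^5 - 4*x^4*y + 5*x^4 - 4*x^3*y + 2*x^2) * h2 + (-3*x^10 - x^9*L - x^9 - 2*x^8*y*L - x^8*y + 6*x^8 + 2*x^7*L + 2*x^7 + 4*x^6*y*L + 2*x^6*y - 3*x^6 - x^5*L - x^5 - 2*x^4*y*L - x^4*y) * hL + (x^6*M + x^6 + 4*x^5*y*M + 4*x^5*y + 4*x^4*y^2*M + 4*x^4*y^2 - x^4*M - x^4 - 4*x^3*y*M - 4*x^3*y + x^2*y^4 - 4*x^2*y^2*M - 5*x^2*y^2 + 4*x*y^5 - 4*x*y^3 + 4*y^6 - 4*y^4) * hM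
    have hne : (y - E.toAffine.negY x y) ^ 2 * (x ^ 4 - x ^ 2) ^ 2 ≠ 0 :=
      mul_ne_zero (pow_ne_zero _ hη) (pow_ne_zero _ hd)
    exact sub_eq_zero.mp ((mul_eq_zero.mp key).resolve_left hne)
  ·
    have key : (y - E.toAffine.negY x y) ^ 3 * (x ^ 4 - x ^ 2) ^ 3 * (E.toAffine.addY (x ^ 4) (x ^ 2) (y ^ 4) M - (E.toAffine.negY (E.toAffine.addX x x L) (E.toAffine.addY x x y L))) = 0 := by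
      simp only [addX, addY, negAddY, negY, ha1, ha2, ha3, ha4]
      linear_combination (32*x^19 + 224*x^18 - 96*x^17*y + 422*x^17 + 32*x^16*y^2 - 232*x^16*y + 519*x^16 + 128*x^15*y^2 - 290*x^15*y + 947*x^15 - 64*x^14*y^3 + 178*x^14*y^2 - 483*x^14*y + 1110*x^14 + 32*x^13*y^4 - 112*x^13*y^3 + 197*x^13*y^2 - 618*x^13*y + 836*x^13 + 63*x^12*y^4 - 112*x^12*y^3 + 326*x^12*y^2 - 506*x^12*y + 1107*x^12 - 38*x^11*y^5 + 66*x^11*y^4 - 194*x^11*y^3 + 329*x^11*y^2 - 488*x^11*y + 1047*x^11 + 20*x^10*y^6 - 49*x^10*y^5 + 77*x^10*y^4 - 156*x^10*y^3 + 239*x^10*y^2 - 453*x^10*y + 540*x^10 - 8*x^9*y^7 + 25*x^9*y^6 - 30*x^9*y^5 + 77*x^9*y^4 - 82*x^9*y^3 + 248*x^9*y^2 - 306*x^9*y + 482*x^9 - 18*x^8*y^7 + 17*x^8*y^6 - 79*x^8*y^5 + 75*x^8*y^4 - 127*x^8*y^3 + 129*x^8*y^2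 - 220*x^8*y + 288*x^8 + 12*x^7*y^8 - 24*x^7*y^7 + 27*x^7*y^6 - 30*x^7*y^5 + 56*x^7*y^4 - 74*x^7*y^3 + 40*x^7*y^2 - 122*x^7*y + 80*x^7 - 8*x^6*y^9 + 7*x^6*y^8 - 5*x^6*y^7 + 21*x^6*y^6 + 23*x^6*y^5 + 28*x^6*y^4 - 23*x^6*y^3 + 68*x^6*y^2 - 38*x^6*y + 100*x^6 - 6*x^5*y^9 - 7*x^5*y^8 - 2*x^5*y^7 + 28*x^5*y^6 - 24*x^5*y^5 + 4*x^5*y^4 - 24*x^5*y^3 + 22*x^5*y^2 - 24*x^5*y + 34*x^5 + 4*x^4*y^10 - 17*x^4*y^9 + 12*x^4*y^8 + 15*x^4*y^7 - 16*x^4*y^5 - 4*x^4*y^3 - 12*x^4*y - 8*x^3*y^11 + x^3*y^10 + 8*x^3*y^9 + 12*x^3*y^8 - 17*x^3*y^6 + 8*x^3*y^4 + 8*x^3*y^2 + 8*x^3 - 2*x^2*y^11 + 16*x^2*y^9 - 22*x^2*y^7 - 4*x*y^12 + 16*x*y^10 - 12*x*y^8 - 8*y^13 + 16*y^11 - 8*y^9) * hF + (16*x^22 + 112*x^21 - 64*x^20*y + 211*x^20 - 228*x^19*y + 276*x^19 - 353*x^18*y + 572*x^18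 - 549*x^17*y + 765*x^17 - 882*x^16*y + 718*x^16 - 952*x^15*y + 1027*x^15 - 971*x^14*y + 1038*x^14 - 1092*x^13*y + 689*x^13 - 856*x^12*y + 808*x^12 - 621*x^11*y + 667*x^11 - 554*x^10*y + 310*x^10 - 317*x^9*y + 291*x^9 - 162*x^8*y + 161*x^8 - 117*x^7*y + 40*x^7 - 36*x^6*y + 54*x^6 - 12*x^5*y + 17*x^5 - 10*x^4*y + 4*x^3) * h2 + (-9*x^16 - 3*x^15*L - 6*x^14*y*L + 12*x^14*y - x^14*L^2 - x^14*L + 27*x^14 + 12*x^13*y^2 - 4*x^13*y*L^2 - 3*x^13*y*L + x^13*y + 9*x^13*L - 4*x^12*y^2*L^2 - 2*x^12*y^2*L + x^12*y^2 + 18*x^12*y*L - 36*x^12*y + 3*x^12*L^2 + 3*x^12*L - 27*x^12 - 36*x^11*y^2 + 12*x^11*y*L^2 + 9*x^11*y*L - 3*x^11*y - 9*x^11*L + 12*x^10*y^2*L^2 + 6*x^10*y^2*L - 3*x^10*y^2 - 18*x^10*y*L + 36*x^10*y - 3*x^10*L^2 - 3*x^10*L + 9*x^10 + 36*x^9*y^2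 - 12*x^9*y*L^2 - 9*x^9*y*L + 3*x^9*y + 3*x^9*L - 12*x^8*y^2*L^2 - 6*x^8*y^2*L + 3*x^8*y^2 + 6*x^8*y*L - 12*x^8*y + x^8*L^2 + x^8*L - 12*x^7*y^2 + 4*x^7*y*L^2 + 3*x^7*y*L - x^7*y + 4*x^6*y^2*L^2 + 2*x^6*y^2*L - x^6*y^2) * hL + (2*x^15 + 12*x^14*y + 24*x^13*y^2 - 3*x^13 + 16*x^12*y^3 - 18*x^12*y - 36*x^11*y^2 - x^11*M^2 - 2*x^11*M - x^11 - 24*x^10*y^3 - 6*x^10*y*M^2 - 12*x^10*y*M - 6*x^10*y - 12*x^9*y^2*M^2 - 24*x^9*y^2*M - 12*x^9*y^2 + 2*x^9*M^2 + 4*x^9*M + 3*x^9 - 8*x^8*y^3*M^2 - 16*x^8*y^3*M - 8*x^8*y^3 + 12*x^8*y*M^2 + 24*x^8*y*M + 18*x^8*y - x^7*y^4*M - 2*x^7*y^4 + 24*x^7*y^2*M^2 + 49*x^7*y^2*M + 38*x^7*y^2 - x^7*M^2 - 2*x^7*M - x^7 - 6*x^6*y^5*M - 12*x^6*y^5 + 16*x^6*y^3*M^2 + 38*x^6*y^3*M + 36*x^6*y^3 - 6*x^6*y*M^2 - 12*x^6*y*M - 6*x^6*y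 - 12*x^5*y^6*M - 24*x^5*y^6 + 13*x^5*y^4*M + 26*x^5*y^4 - 12*x^5*y^2*M^2 - 25*x^5*y^2*M - 14*x^5*y^2 - 8*x^4*y^7*M - 16*x^4*y^7 + 14*x^4*y^5*M + 28*x^4*y^5 - 8*x^4*y^3*M^2 - 22*x^4*y^3*M - 20*x^4*y^3 - x^3*y^8 + 12*x^3*y^6*M + 26*x^3*y^6 - 12*x^3*y^4*M - 25*x^3*y^4 - 6*x^2*y^9 + 8*x^2*y^7*M + 28*x^2*y^7 - 8*x^2*y^5*M - 22*x^2*y^5 - 12*x*y^10 + 24*x*y^8 - 12*x*y^6 - 8*y^11 + 16*y^9 - 8*y^7) * hM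
    have hne : (y - E.toAffine.negY x y) ^ 3 * (x ^ 4 - x ^ 2) ^ 3 ≠ 0 :=
      mul_ne_zero (pow_ne_zero _ hη) (pow_ne_zero _ hd)
    exact sub_eq_zero.mp ((mul_eq_zero.mp key).resolve_left hne)

theorem ord_10010 (E : WeierstrassCurve K) (h2 : (2 : K) = 0)
    (ha1 : E.a₁ = 1) (ha2 : E.a₂ = 0) (ha3 : E.a₃ = 0) (ha4 : E.a₄ = 1) (ha6 : E.a₆ = 0)
    {x y : K} (h : E.toAffine.Nonsingular x y) (hx0 : x ≠ 0) (hx1 : x ≠ 1)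
    (hφ : E.toAffine.Nonsingular (x ^ 2) (y ^ 2))
    (h4 : E.toAffine.Nonsingular (x ^ 4) (y ^ 4)) :
    Point.some (x ^ 4) (y ^ 4) h4 + Point.some (x ^ 2) (y ^ 2) hφ + (Point.some x y h + Point.some x y h) = 0 := by
  have hF := (equation_iff x y).mp h.1
  rw [ha1, ha2, ha3, ha4, ha6] at hF
  have hη : y - E.toAffine.negY x y ≠ 0 := by
    intro h0
    apply hx0
    simp only [negY, ha1, ha3] at h0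
    linear_combination h0 - y * h2
  have hd : x ^ 4 - x ^ 2 ≠ 0 := by
    intro h0
    have h3 : x ^ 2 * (x - 1) ^ 2 = 0 := by linear_combination h0 - (x ^ 2 * (x - 1)) * h2
    rcases mul_eq_zero.mp h3 with h5 | h5
    · exact hx0 (pow_eq_zero_iff (two_ne_zero) |>.mp h5)
    · exact hx1 (sub_eq_zero.mp (pow_eq_zero_iff (two_ne_zero) |>.mp h5))
  obtain ⟨L, hL⟩ : ∃ L : K, L * (y - E.toAffine.negY x y)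
      = 3 * x ^ 2 + 2 * E.a₂ * x + E.a₄ - E.a₁ * y := ⟨_, div_mul_cancel₀ _ hη⟩
  obtain ⟨M, hM⟩ : ∃ M : K, M * (x ^ 4 - x ^ 2) = y ^ 4 - y ^ 2 := ⟨_, div_mul_cancel₀ _ hd⟩
  obtain ⟨hC, e2⟩ := add_self_some h hη hL
  obtain ⟨hS, eS⟩ := add_some_some h4 _ hd hM
  rw [e2, eS]
  simp only [negY, ha1, ha2, ha3, ha4] at hL hM
  refine Point.add_of_Y_eq ?_ ?_
  ·
    have key : (y - E.toAffine.negY x y) ^ 2 * (x ^ 4 - x ^ 2) ^ 2 * (E.toAffine.addX (x ^ 4) (x ^ 2) M - (E.toAffine.addX x x L)) = 0 := by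
      simp only [addX, addY, negAddY, negY, ha1, ha2, ha3, ha4]
      linear_combination (25*x^11 - 12*x^10*y + 50*x^10 + 4*x^9*y^2 - 19*x^9*y + 89*x^9 + 13*x^8*y^2 - 48*x^8*y + 61*x^8 - 8*x^7*y^3 + 23*x^7*y^2 - 24*x^7*y + 26*x^7 + 4*x^6*y^4 - 6*x^6*y^3 + 20*x^6*y^2 - 32*x^6*y - 20*x^6 + 5*x^5*y^4 - 17*x^5*y^3 + 9*x^5*y^2 + 16*x^5*y - 5*x^5 - 4*x^4*y^5 + 13*x^4*y^4 + 2*x^4*y^3 - 10*x^4*y^2 - 15*x^4 + 4*x^3*y^6 - x^3*y^5 - 3*x^3*y^4 - 6*x^3*y^3 - 6*x^3*y^2 + 15*x^3*y + x^3 + x^2*y^6 - 4*x^2*y^5 - 2*x^2*y^4 + 8*x^2*y^3 - 3*x^2*y^2 - 4*x^2*y + 4*x^2 + 4*x*y^6 - 8*x*y^4 + 4*x*y^2 + 4*y^8 - 8*y^6 + 4*y^4) * hF + (12*x^14 - 8*x^13*y + 25*x^13 - 22*x^12*y + 53*x^12 - 53*x^11*y + 55*x^11 - 62*x^10*y + 64*x^10 - 68*x^9*y + 21*x^9 - 25*x^8*y + 11*x^8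 - 9*x^7*y - 17*x^7 + 22*x^6*y - 4*x^6 + 6*x^5*y - 6*x^5 + 7*x^4*y - 4*x^3*y + 2*x^3) * h2 + (-3*x^10 - x^9*L - x^9 - 2*x^8*y*L - x^8*y + 5*x^8 + 2*x^7*L + 2*x^7 + 4*x^6*y*L + 2*x^6*y - x^6 - x^5*L - x^5 - 2*x^4*y*L - x^4*y - x^4) * hL + (x^6*M + x^6 + 4*x^5*y*M + 4*x^5*y + 4*x^4*y^2*M + 4*x^4*y^2 - x^4*M - x^4 - 4*x^3*y*M - 4*x^3*y + x^2*y^4 - 4*x^2*y^2*M - 5*x^2*y^2 + 4*x*y^5 - 4*x*y^3 + 4*y^6 - 4*y^4) * hM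
    have hne : (y - E.toAffine.negY x y) ^ 2 * (x ^ 4 - x ^ 2) ^ 2 ≠ 0 :=
      mul_ne_zero (pow_ne_zero _ hη) (pow_ne_zero _ hd)
    exact sub_eq_zero.mp ((mul_eq_zero.mp key).resolve_left hne)
  ·
    have key : (y - E.toAffine.negY x y) ^ 3 * (x ^ 4 - x ^ 2) ^ 3 * (E.toAffine.addY (x ^ 4) (x ^ 2) (y ^ 4) M - (E.toAffine.negY (E.toAffine.addX x x L) (E.toAffine.addY x x y L))) = 0 := by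
      simp only [addX, addY, negAddY, negY, ha1, ha2, ha3, ha4]
      linear_combination (32*x^19 + 224*x^18 - 96*x^17*y + 662*x^17 + 32*x^16*y^2 - 264*x^16*y + 1427*x^16 + 128*x^15*y^2 - 762*x^15*y + 2123*x^15 - 64*x^14*y^3 + 354*x^14*y^2 - 1055*x^14*y + 2349*x^14 + 32*x^13*y^4 - 144*x^13*y^3 + 537*x^13*y^2 - 1368*x^13*y + 1649*x^13 + 63*x^12*y^4 - 344*x^12*y^3 + 704*x^12*y^2 - 796*x^12*y + 698*x^12 - 38*x^11*y^5 + 178*x^11*y^4 - 346*x^11*y^3 + 459*x^11*y^2 - 402*x^11*y - 280*x^11 + 20*x^10*y^6 - 81*x^10*y^5 + 154*x^10*y^4 - 296*x^10*y^3 + 243*x^10*y^2 + 422*x^10*y - 646*x^10 - 8*x^9*y^7 + 25*x^9*y^6 - 112*x^9*y^5 + 188*x^9*y^4 - 8*x^9*y^3 - 209*x^9*y^2 + 190*x^9*y - 538*x^9 - 18*x^8*y^7 + 77*x^8*y^6 - 111*x^8*y^5 - 23*x^8*y^4 + 65*x^8*y^3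 - 201*x^8*y^2 + 366*x^8*y - 105*x^8 + 12*x^7*y^8 - 48*x^7*y^7 + 17*x^7*y^6 + 4*x^7*y^5 + 23*x^7*y^4 + 196*x^7*y^3 - 199*x^7*y^2 - 60*x^7*y + 93*x^7 - 8*x^6*y^9 + 7*x^6*y^8 - 17*x^6*y^7 + 48*x^6*y^6 + 80*x^6*y^5 - 137*x^6*y^4 - 4*x^6*y^3 + 47*x^6*y^2 - 11*x^6*y + 73*x^6 - 6*x^5*y^9 + 17*x^5*y^8 - 14*x^5*y^7 - 36*x^5*y^6 + 52*x^5*y^5 - 4*x^5*y^4 + 16*x^5*y^2 - 70*x^5*y + 35*x^5 + 4*x^4*y^10 - 33*x^4*y^9 - 5*x^4*y^8 + 69*x^4*y^7 + 3*x^4*y^6 - 21*x^4*y^5 - 27*x^4*y^4 - 33*x^4*y^3 + 45*x^4*y^2 + 10*x^4*y - 20*x^4 - 8*x^3*y^11 + x^3*y^10 + 18*x^3*y^9 + 17*x^3*y^8 + 2*x^3*y^7 - 49*x^3*y^6 - 18*x^3*y^5 + 43*x^3*y^4 - 2*x^3*y^3 - 12*x^3*y^2 + 8*x^3*y - 2*x^2*y^11 + 4*x^2*y^10 + 14*x^2*y^9 - 12*x^2*y^8 - 14*x^2*y^7 + 12*x^2*y^6 - 6*x^2*y^5 - 4*x^2*y^4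 + 8*x^2*y^3 - 4*x*y^12 - 8*x*y^11 + 12*x*y^10 + 24*x*y^9 - 12*x*y^8 - 24*x*y^7 + 4*x*y^6 + 8*x*y^5 - 8*y^13 + 24*y^11 - 24*y^9 + 8*y^7) * hF + (16*x^22 + 112*x^21 - 64*x^20*y + 347*x^20 - 244*x^19*y + 826*x^19 - 757*x^18*y + 1379*x^18 - 1373*x^17*y + 1887*x^17 - 2110*x^16*y + 1913*x^16 - 2099*x^15*y + 1522*x^15 - 1768*x^14*y + 680*x^14 - 538*x^13*y + 31*x^13 + 81*x^12*y - 423*x^12 + 717*x^11*y - 379*x^11 + 334*x^10*y - 221*x^10 + 232*x^9*y - 16*x^9 - 119*x^8*y + 67*x^8 - 38*x^7*y + 27*x^7 - 49*x^6*y + 18*x^6 + 15*x^5*y - 10*x^5 + 4*x^4*y) * h2 + (-9*x^16 - 3*x^15*L - 6*x^14*y*L + 12*x^14*y - x^14*L^2 - x^14*L + 21*x^14 + 12*x^13*y^2 - 4*x^13*y*L^2 - 3*x^13*y*L + x^13*y + 8*x^13*L - x^13 - 4*x^12*y^2*L^2 - 2*x^12*y^2*L + x^12*y^2 + 16*x^12*y*L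 - 36*x^12*y + 3*x^12*L^2 + 3*x^12*L - 10*x^12 - 36*x^11*y^2 + 12*x^11*y*L^2 + 9*x^11*y*L - 3*x^11*y - 6*x^11*L + 3*x^11 + 12*x^10*y^2*L^2 + 6*x^10*y^2*L - 3*x^10*y^2 - 12*x^10*y*L + 36*x^10*y - 3*x^10*L^2 - 3*x^10*L - 6*x^10 + 36*x^9*y^2 - 12*x^9*y*L^2 - 9*x^9*y*L + 3*x^9*y - 3*x^9 - 12*x^8*y^2*L^2 - 6*x^8*y^2*L + 3*x^8*y^2 - 12*x^8*y + x^8*L^2 + x^8*L + 3*x^8 - 12*x^7*y^2 + 4*x^7*y*L^2 + 3*x^7*y*L - x^7*y + x^7*L + x^7 + 4*x^6*y^2*L^2 + 2*x^6*y^2*L - x^6*y^2 + 2*x^6*y*L + x^6) * hL + (2*x^15 + 12*x^14*y + 24*x^13*y^2 - 3*x^13 + 16*x^12*y^3 - 18*x^12*y - 36*x^11*y^2 - x^11*M^2 - 2*x^11*M - x^11 - 24*x^10*y^3 - 6*x^10*y*M^2 - 12*x^10*y*M - 6*x^10*y - 12*x^9*y^2*M^2 - 24*x^9*y^2*M - 12*x^9*y^2 + 2*x^9*M^2 + 4*x^9*M + 3*x^9 - 8*x^8*y^3*M^2 -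 16*x^8*y^3*M - 8*x^8*y^3 + 12*x^8*y*M^2 + 24*x^8*y*M + 18*x^8*y - x^7*y^4*M - 2*x^7*y^4 + 24*x^7*y^2*M^2 + 49*x^7*y^2*M + 38*x^7*y^2 - x^7*M^2 - 2*x^7*M - x^7 - 6*x^6*y^5*M - 12*x^6*y^5 + 16*x^6*y^3*M^2 + 38*x^6*y^3*M + 36*x^6*y^3 - 6*x^6*y*M^2 - 12*x^6*y*M - 6*x^6*y - 12*x^5*y^6*M - 24*x^5*y^6 + 13*x^5*y^4*M + 26*x^5*y^4 - 12*x^5*y^2*M^2 - 25*x^5*y^2*M - 14*x^5*y^2 - 8*x^4*y^7*M - 16*x^4*y^7 + 14*x^4*y^5*M + 28*x^4*y^5 - 8*x^4*y^3*M^2 - 22*x^4*y^3*M - 20*x^4*y^3 - x^3*y^8 + 12*x^3*y^6*M + 26*x^3*y^6 - 12*x^3*y^4*M - 25*x^3*y^4 - 6*x^2*y^9 + 8*x^2*y^7*M + 28*x^2*y^7 - 8*x^2*y^5*M - 22*x^2*y^5 - 12*x*y^10 + 24*x*y^8 - 12*x*y^6 - 8*y^11 + 16*y^9 - 8*y^7) * hM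
    have hne : (y - E.toAffine.negY x y) ^ 3 * (x ^ 4 - x ^ 2) ^ 3 ≠ 0 :=
      mul_ne_zero (pow_ne_zero _ hη) (pow_ne_zero _ hd)
    exact sub_eq_zero.mp ((mul_eq_zero.mp key).resolve_left hne)

theorem ord_10101 (E : WeierstrassCurve K) (h2 : (2 : K) = 0)
    (ha1 : E.a₁ = 1) (ha2 : E.a₂ = 0) (ha3 : E.a₃ = 1) (ha4 : E.a₄ = 0) (ha6 : E.a₆ = 1)
    {x y : K} (h : E.toAffine.Nonsingular x y) (hx0 : x ≠ 0) (hx1 : x ≠ 1)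
    (hφ : E.toAffine.Nonsingular (x ^ 2) (y ^ 2))
    (h4 : E.toAffine.Nonsingular (x ^ 4) (y ^ 4)) :
    Point.some (x ^ 4) (y ^ 4) h4 + -Point.some (x ^ 2) (y ^ 2) hφ + (Point.some x y h + Point.some x y h) = 0 := by
  have hF := (equation_iff x y).mp h.1
  rw [ha1, ha2, ha3, ha4, ha6] at hF
  have hη : y - E.toAffine.negY x y ≠ 0 := by
    intro h0
    apply hx1
    simp only [negY, ha1, ha3] at h0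
    linear_combination h0 - (y + 1) * h2
  have hd : x ^ 4 - x ^ 2 ≠ 0 := by
    intro h0
    have h3 : x ^ 2 * (x - 1) ^ 2 = 0 := by linear_combination h0 - (x ^ 2 * (x - 1)) * h2
    rcases mul_eq_zero.mp h3 with h5 | h5
    · exact hx0 (pow_eq_zero_iff (two_ne_zero) |>.mp h5)
    · exact hx1 (sub_eq_zero.mp (pow_eq_zero_iff (two_ne_zero) |>.mp h5))
  obtain ⟨L, hL⟩ : ∃ L : K, L * (y - E.toAffine.negY x y)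
      = 3 * x ^ 2 + 2 * E.a₂ * x + E.a₄ - E.a₁ * y := ⟨_, div_mul_cancel₀ _ hη⟩
  obtain ⟨M, hM⟩ : ∃ M : K, M * (x ^ 4 - x ^ 2) = y ^ 4 - E.toAffine.negY (x ^ 2) (y ^ 2) := ⟨_, div_mul_cancel₀ _ hd⟩
  obtain ⟨hC, e2⟩ := add_self_some h hη hL
  rw [Point.neg_some]
  obtain ⟨hS, eS⟩ := add_some_some h4 _ hd hM
  rw [e2, eS]
  simp only [negY, ha1, ha2, ha3, ha4] at hL hM
  refine Point.add_of_Y_eq ?_ ?_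
  ·
    have key : (y - E.toAffine.negY x y) ^ 2 * (x ^ 4 - x ^ 2) ^ 2 * (E.toAffine.addX (x ^ 4) (x ^ 2) M - (E.toAffine.addX x x L)) = 0 := by
      simp only [addX, addY, negAddY, negY, ha1, ha2, ha3, ha4]
      linear_combination (25*x^11 - 12*x^10*y + 84*x^10 + 4*x^9*y^2 - 31*x^9*y + 175*x^9 + 13*x^8*y^2 - 69*x^8*y + 332*x^8 - 8*x^7*y^3 + 37*x^7*y^2 - 155*x^7*y + 525*x^7 + 4*x^6*y^4 - 14*x^6*y^3 + 63*x^6*y^2 - 215*x^6*y + 691*x^6 + 5*x^5*y^4 - 19*x^5*y^3 + 90*x^5*y^2 - 273*x^5*y + 840*x^5 - 4*x^4*y^5 + 15*x^4*y^4 - 47*x^4*y^3 + 134*x^4*y^2 - 363*x^4*y + 912*x^4 + 4*x^3*y^6 - 5*x^3*y^5 + 25*x^3*y^4 - 48*x^3*y^3 + 141*x^3*y^2 - 314*x^3*y + 753*x^3 + x^2*y^6 - 3*x^2*y^5 + 17*x^2*y^4 - 34*x^2*y^3 + 104*x^2*y^2 - 228*x^2*y + 538*x^2 + 2*x*y^6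 - 7*x*y^5 + 18*x*y^4 - 45*x*y^3 + 94*x*y^2 - 199*x*y + 382*x + 4*y^8 + 13*y^6 - 5*y^5 + 32*y^4 - 25*y^3 + 68*y^2 - 85*y + 159) * hF + (12*x^14 - 8*x^13*y + 41*x^13 - 30*x^12*y + 83*x^12 - 87*x^11*y + 179*x^11 - 207*x^10*y + 315*x^10 - 370*x^9*y + 436*x^9 - 605*x^8*y + 581*x^8 - 876*x^7*y + 716*x^7 - 1027*x^6*y + 723*x^6 - 1120*x^5*y + 691*x^5 - 1111*x^4*y + 648*x^4 - 843*x^3*y + 457*x^3 - 572*x^2*y + 270*x^2 - 368*x*y + 192*x - 120*y + 80) * h2 + (-3*x^10 - x^9*L - x^9 - 2*x^8*y*L - x^8*y - x^8*L + 5*x^8 + 2*x^7*L + 2*x^7 + 4*x^6*y*L + 2*x^6*y + 2*x^6*L - x^6 - x^5*L - x^5 - 2*x^4*y*L - x^4*y - x^4*L - x^4) * hL + (x^6*M + x^6 + 4*x^5*y*M + 4*x^5*y + 2*x^5*M + 2*x^5 + 4*x^4*y^2*M + 4*x^4*y^2 + 4*x^4*y*M + 4*x^4*y + x^4 - 4*x^3*y*M - 2*x^3*M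 + x^2*y^4 - 4*x^2*y^2*M + x^2*y^2 - 4*x^2*y*M - x^2*M + x^2 + 4*x*y^5 + 2*x*y^4 + 4*x*y^3 + 2*x*y^2 + 4*x*y + 2*x + 4*y^6 + 4*y^5 + 5*y^4 + 4*y^3 + 5*y^2 + 4*y + 1) * hM
    have hne : (y - E.toAffine.negY x y) ^ 2 * (x ^ 4 - x ^ 2) ^ 2 ≠ 0 :=
      mul_ne_zero (pow_ne_zero _ hη) (pow_ne_zero _ hd)
    exact sub_eq_zero.mp ((mul_eq_zero.mp key).resolve_left hne)
  ·
    have key : (y - E.toAffine.negY x y) ^ 3 * (x ^ 4 - x ^ 2) ^ 3 * (E.toAffine.addY (x ^ 4) (x ^ 2) (y ^ 4) M - (E.toAffine.negY (E.toAffine.addX x x L) (E.toAffine.addY x x y L))) = 0 := by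
      simp only [addX, addY, negAddY, negY, ha1, ha2, ha3, ha4]
      linear_combination (32*x^19 + 256*x^18 - 96*x^17*y + 1094*x^17 + 32*x^16*y^2 - 424*x^16*y + 3261*x^16 + 160*x^15*y^2 - 1298*x^15*y + 8142*x^15 - 64*x^14*y^3 + 562*x^14*y^2 - 3515*x^14*y + 17509*x^14 + 32*x^13*y^4 - 240*x^13*y^3 + 1495*x^13*y^2 - 7502*x^13*y + 32366*x^13 + 95*x^12*y^4 - 576*x^12*y^3 + 3131*x^12*y^2 - 13711*x^12*y + 53787*x^12 - 38*x^11*y^5 + 255*x^11*y^4 - 1406*x^11*y^3 + 5939*x^11*y^2 - 23050*x^11*y + 81515*x^11 + 20*x^10*y^6 - 125*x^10*y^5 + 620*x^10*y^4 - 2636*x^10*y^3 + 9812*x^10*y^2 - 33983*x^10*y + 110238*x^10 - 8*x^9*y^7 + 45*x^9*y^6 - 248*x^9*y^5 + 1037*x^9*y^4 - 4030*x^9*y^3 + 13888*x^9*y^2 - 44658*x^9*y + 135198*x^9 - 18*x^8*y^7 + 92*x^8*y^6 - 493*x^8*y^5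 + 1682*x^8*y^4 - 5929*x^8*y^3 + 18358*x^8*y^2 - 54639*x^8*y + 153603*x^8 + 12*x^7*y^8 - 60*x^7*y^7 + 227*x^7*y^6 - 806*x^7*y^5 + 2550*x^7*y^4 - 7670*x^7*y^3 + 21803*x^7*y^2 - 59564*x^7*y + 156994*x^7 - 8*x^6*y^9 + 19*x^6*y^8 - 103*x^6*y^7 + 299*x^6*y^6 - 1015*x^6*y^5 + 2916*x^6*y^4 - 8298*x^6*y^3 + 22176*x^6*y^2 - 57413*x^6*y + 143611*x^6 - 6*x^5*y^9 + 14*x^5*y^8 - 124*x^5*y^7 + 339*x^5*y^6 - 1172*x^5*y^5 + 3117*x^5*y^4 - 8466*x^5*y^3 + 21100*x^5*y^2 - 51548*x^5*y + 121301*x^5 + 4*x^4*y^10 - 29*x^4*y^9 + 54*x^4*y^8 - 220*x^4*y^7 + 506*x^4*y^6 - 1398*x^4*y^5 + 3303*x^4*y^4 - 7927*x^4*y^3 + 18196*x^4*y^2 - 40997*x^4*y + 90482*x^4 - 8*x^3*y^11 + 5*x^3*y^10 - 50*x^3*y^9 + 59*x^3*y^8 - 250*x^3*y^7 + 442*x^3*y^6 - 1206*x^3*y^5 + 2518*x^3*y^4 - 5822*x^3*y^3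 + 12480*x^3*y^2 - 26924*x^3*y + 56555*x^3 - 2*x^2*y^11 + 3*x^2*y^10 - 26*x^2*y^9 + 36*x^2*y^8 - 155*x^2*y^7 + 294*x^2*y^6 - 802*x^2*y^5 + 1659*x^2*y^4 - 3738*x^2*y^3 + 7694*x^2*y^2 - 15869*x^2*y + 31620*x^2 - 4*x*y^12 - 4*x*y^11 - 5*x*y^10 - 28*x*y^9 + 35*x*y^8 - 146*x*y^7 + 275*x*y^6 - 622*x*y^5 + 1207*x*y^4 - 2342*x*y^3 + 4399*x*y^2 - 8080*x*y + 14691*x - 8*y^13 - 4*y^12 - 34*y^11 - 7*y^10 - 93*y^9 + 11*y^8 - 196*y^7 + 117*y^6 - 403*y^5 + 441*y^4 - 904*y^3 + 1303*y^2 - 2233*y + 3521) * hF + (16*x^22 + 128*x^21 - 64*x^20*y + 547*x^20 - 356*x^19*y + 1647*x^19 - 1321*x^18*y + 4187*x^18 - 3977*x^17*y + 9303*x^17 - 9639*x^16*y + 17859*x^16 - 20311*x^15*y + 30968*x^15 - 38295*x^14*y + 49455*x^14 - 63891*x^13*y + 71286*x^13 - 96767*x^12*y + 94520*x^12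 - 134649*x^11*y + 117572*x^11 - 169526*x^10*y + 133606*x^10 - 195488*x^9*y + 139394*x^9 - 208404*x^8*y + 137450*x^8 - 200580*x^7*y + 123737*x^7 - 174630*x^6*y + 100080*x^6 - 139612*x^5*y + 76457*x^5 - 98066*x^4*y + 52584*x^4 - 58672*x^3*y + 30036*x^3 - 31096*x^2*y + 15808*x^2 - 13152*x*y + 7344*x - 2880*y + 1760) * h2 + (-9*x^16 - 3*x^15*L - 6*x^14*y*L + 12*x^14*y - x^14*L^2 - 4*x^14*L + 30*x^14 + 12*x^13*y^2 - 4*x^13*y*L^2 - 3*x^13*y*L + 13*x^13*y - 2*x^13*L^2 + 7*x^13*L + 3*x^13 - 4*x^12*y^2*L^2 - 2*x^12*y^2*L + x^12*y^2 - 4*x^12*y*L^2 + 15*x^12*y*L - 35*x^12*y + 2*x^12*L^2 + 11*x^12*L - 36*x^12 - 36*x^11*y^2 + 12*x^11*y*L^2 + 9*x^11*y*L - 39*x^11*y + 6*x^11*L^2 - 3*x^11*L - 9*x^11 + 12*x^10*y^2*L^2 + 6*x^10*y^2*L - 3*x^10*y^2 + 12*x^10*y*L^2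 - 9*x^10*y*L + 33*x^10*y - 9*x^10*L + 18*x^10 + 36*x^9*y^2 - 12*x^9*y*L^2 - 9*x^9*y*L + 39*x^9*y - 6*x^9*L^2 - 3*x^9*L + 9*x^9 - 12*x^8*y^2*L^2 - 6*x^8*y^2*L + 3*x^8*y^2 - 12*x^8*y*L^2 - 3*x^8*y*L - 9*x^8*y - 2*x^8*L^2 + x^8*L - 3*x^8 - 12*x^7*y^2 + 4*x^7*y*L^2 + 3*x^7*y*L - 13*x^7*y + 2*x^7*L^2 + 2*x^7*L - 3*x^7 + 4*x^6*y^2*L^2 + 2*x^6*y^2*L - x^6*y^2 + 4*x^6*y*L^2 + 3*x^6*y*L - x^6*y + x^6*L^2 + x^6*L) * hL + (2*x^15 + 12*x^14*y + 6*x^14 + 24*x^13*y^2 + 24*x^13*y + 3*x^13 + 16*x^12*y^3 + 24*x^12*y^2 - 6*x^12*y - 7*x^12 - 36*x^11*y^2 - 36*x^11*y - x^11*M^2 - 2*x^11*M - 10*x^11 - 24*x^10*y^3 - 36*x^10*y^2 - 6*x^10*y*M^2 - 12*x^10*y*M - 24*x^10*y - 3*x^10*M^2 - 6*x^10*M - 6*x^10 - 12*x^9*y^2*M^2 - 24*x^9*y^2*M - 12*x^9*y^2 - 12*x^9*y*M^2 -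 24*x^9*y*M - 12*x^9*y - x^9*M^2 - 3*x^9*M - 2*x^9 - 8*x^8*y^3*M^2 - 16*x^8*y^3*M - 8*x^8*y^3 - 12*x^8*y^2*M^2 - 24*x^8*y^2*M - 12*x^8*y^2 + 6*x^8*y*M^2 + 6*x^8*y*M + 5*x^8*M^2 + 7*x^8*M + 2*x^8 - x^7*y^4*M - 2*x^7*y^4 + 24*x^7*y^2*M^2 + 35*x^7*y^2*M + 10*x^7*y^2 + 24*x^7*y*M^2 + 36*x^7*y*M + 12*x^7*y + 5*x^7*M^2 + 7*x^7*M + x^7 - 6*x^6*y^5*M - 12*x^6*y^5 - 3*x^6*y^4*M - 6*x^6*y^4 + 16*x^6*y^3*M^2 + 18*x^6*y^3*M - 4*x^6*y^3 + 24*x^6*y^2*M^2 + 33*x^6*y^2*M + 6*x^6*y^2 + 6*x^6*y*M^2 + 6*x^6*y*M - 6*x^6*y - x^6*M^2 - 3*x^6*M - 5*x^6 - 12*x^5*y^6*M - 24*x^5*y^6 - 12*x^5*y^5*M - 24*x^5*y^5 - 14*x^5*y^4*M - 30*x^5*y^4 - 12*x^5*y^3*M - 24*x^5*y^3 - 12*x^5*y^2*M^2 - 26*x^5*y^2*M - 30*x^5*y^2 - 12*x^5*y*M^2 - 24*x^5*y*M - 24*x^5*y - 3*x^5*M^2 - 5*x^5*M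 - 6*x^5 - 8*x^4*y^7*M - 16*x^4*y^7 - 12*x^4*y^6*M - 24*x^4*y^6 - 8*x^4*y^5*M - 28*x^4*y^5 - 10*x^4*y^4*M - 26*x^4*y^4 - 8*x^4*y^3*M^2 - 16*x^4*y^3*M - 28*x^4*y^3 - 12*x^4*y^2*M^2 - 22*x^4*y^2*M - 26*x^4*y^2 - 6*x^4*y*M^2 - 6*x^4*y*M - 12*x^4*y - x^4*M^2 + x^4*M - 2*x^4 - x^3*y^8 + 12*x^3*y^6*M - 2*x^3*y^6 + 12*x^3*y^5*M + 15*x^3*y^4*M - 3*x^3*y^4 + 12*x^3*y^3*M + 15*x^3*y^2*M - 2*x^3*y^2 + 12*x^3*y*M + 3*x^3*M - x^3 - 6*x^2*y^9 - 3*x^2*y^8 + 8*x^2*y^7*M - 12*x^2*y^7 + 12*x^2*y^6*M - 6*x^2*y^6 + 14*x^2*y^5*M - 18*x^2*y^5 + 13*x^2*y^4*M - 9*x^2*y^4 + 14*x^2*y^3*M - 12*x^2*y^3 + 13*x^2*y^2*M - 6*x^2*y^2 + 6*x^2*y*M - 6*x^2*y + x^2*M - 3*x^2 - 12*x*y^10 - 12*x*y^9 - 27*x*y^8 - 24*x*y^7 - 42*x*y^6 - 36*x*y^5 - 33*x*y^4 - 24*x*y^3 - 18*x*y^2 - 12*x*y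 - 3*x - 8*y^11 - 12*y^10 - 22*y^9 - 25*y^8 - 36*y^7 - 38*y^6 - 34*y^5 - 27*y^4 - 20*y^3 - 14*y^2 - 6*y - 1) * hM
    have hne : (y - E.toAffine.negY x y) ^ 3 * (x ^ 4 - x ^ 2) ^ 3 ≠ 0 :=
      mul_ne_zero (pow_ne_zero _ hη) (pow_ne_zero _ hd)
    exact sub_eq_zero.mp ((mul_eq_zero.mp key).resolve_left hne)

theorem ord_10111 (E : WeierstrassCurve K) (h2 : (2 : K) = 0)
    (ha1 : E.a₁ = 1) (ha2 : E.a₂ = 0) (ha3 : E.a₃ = 1) (ha4 : E.a₄ = 1) (ha6 : E.a₆ = 1)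
    {x y : K} (h : E.toAffine.Nonsingular x y) (hx0 : x ≠ 0) (hx1 : x ≠ 1)
    (hφ : E.toAffine.Nonsingular (x ^ 2) (y ^ 2))
    (h4 : E.toAffine.Nonsingular (x ^ 4) (y ^ 4)) :
    Point.some (x ^ 4) (y ^ 4) h4 + -Point.some (x ^ 2) (y ^ 2) hφ + (Point.some x y h + Point.some x y h) = 0 := by
  have hF := (equation_iff x y).mp h.1
  rw [ha1, ha2, ha3, ha4, ha6] at hF
  have hη : y - E.toAffine.negY x y ≠ 0 := by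
    intro h0
    apply hx1
    simp only [negY, ha1, ha3] at h0
    linear_combination h0 - (y + 1) * h2
  have hd : x ^ 4 - x ^ 2 ≠ 0 := by
    intro h0
    have h3 : x ^ 2 * (x - 1) ^ 2 = 0 := by linear_combination h0 - (x ^ 2 * (x - 1)) * h2
    rcases mul_eq_zero.mp h3 with h5 | h5
    · exact hx0 (pow_eq_zero_iff (two_ne_zero) |>.mp h5)
    · exact hx1 (sub_eq_zero.mp (pow_eq_zero_iff (two_ne_zero) |>.mp h5))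
  obtain ⟨L, hL⟩ : ∃ L : K, L * (y - E.toAffine.negY x y)
      = 3 * x ^ 2 + 2 * E.a₂ * x + E.a₄ - E.a₁ * y := ⟨_, div_mul_cancel₀ _ hη⟩
  obtain ⟨M, hM⟩ : ∃ M : K, M * (x ^ 4 - x ^ 2) = y ^ 4 - E.toAffine.negY (x ^ 2) (y ^ 2) := ⟨_, div_mul_cancel₀ _ hd⟩
  obtain ⟨hC, e2⟩ := add_self_some h hη hL
  rw [Point.neg_some]
  obtain ⟨hS, eS⟩ := add_some_some h4 _ hd hM
  rw [e2, eS]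
  simp only [negY, ha1, ha2, ha3, ha4] at hL hM
  refine Point.add_of_Y_eq ?_ ?_
  ·
    have key : (y - E.toAffine.negY x y) ^ 2 * (x ^ 4 - x ^ 2) ^ 2 * (E.toAffine.addX (x ^ 4) (x ^ 2) M - (E.toAffine.addX x x L)) = 0 := by
      simp only [addX, addY, negAddY, negY, ha1, ha2, ha3, ha4]
      linear_combination (25*x^11 - 12*x^10*y + 100*x^10 + 4*x^9*y^2 - 31*x^9*y + 250*x^9 + 13*x^8*y^2 - 105*x^8*y + 566*x^8 - 8*x^7*y^3 + 49*x^7*y^2 - 229*x^7*y + 969*x^7 + 4*x^6*y^4 - 14*x^6*y^3 + 89*x^6*y^2 - 377*x^6*y + 1473*x^6 + 5*x^5*y^4 - 35*x^5*y^3 + 165*x^5*y^2 - 590*x^5*y + 1951*x^5 - 4*x^4*y^5 + 23*x^4*y^4 - 69*x^4*y^3 + 241*x^4*y^2 - 708*x^4*y + 2055*x^4 + 4*x^3*y^6 - 5*x^3*y^5 + 30*x^3*y^4 - 74*x^3*y^3 + 253*x^3*y^2 - 669*x^3*y + 1798*x^3 +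 x^2*y^6 - 7*x^2*y^5 + 31*x^2*y^4 - 84*x^2*y^3 + 237*x^2*y^2 - 569*x^2*y + 1327*x^2 + 6*x*y^6 - 11*x*y^5 + 39*x*y^4 - 75*x*y^3 + 177*x*y^2 - 337*x*y + 671*x + 4*y^8 + 13*y^6 - 5*y^5 + 32*y^4 - 25*y^3 + 68*y^2 - 85*y + 159) * hF + (12*x^14 - 8*x^13*y + 49*x^13 - 30*x^12*y + 133*x^12 - 119*x^11*y + 346*x^11 - 305*x^10*y + 667*x^10 - 658*x^9*y + 1147*x^9 - 1235*x^8*y + 1743*x^8 - 1887*x^7*y + 2247*x^7 - 2527*x^6*y + 2611*x^6 - 2930*x^5*y + 2668*x^5 - 2781*x^4*y + 2262*x^4 - 2222*x^3*y + 1643*x^3 - 1450*x^2*y + 1000*x^2 - 624*x*y + 416*x - 120*y + 80) * h2 + (-3*x^10 - x^9*L - x^9 - 2*x^8*y*L - x^8*y - x^8*L + 4*x^8 + 2*x^7*L + 2*x^7 + 4*x^6*y*L + 2*x^6*y + 2*x^6*L + x^6 - x^5*L - x^5 - 2*x^4*y*L - x^4*y - x^4*L - 2*x^4) * hL + (x^6*M + x^6 + 4*x^5*y*M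 + 4*x^5*y + 2*x^5*M + 2*x^5 + 4*x^4*y^2*M + 4*x^4*y^2 + 4*x^4*y*M + 4*x^4*y + x^4 - 4*x^3*y*M - 2*x^3*M + x^2*y^4 - 4*x^2*y^2*M + x^2*y^2 - 4*x^2*y*M - x^2*M + x^2 + 4*x*y^5 + 2*x*y^4 + 4*x*y^3 + 2*x*y^2 + 4*x*y + 2*x + 4*y^6 + 4*y^5 + 5*y^4 + 4*y^3 + 5*y^2 + 4*y + 1) * hM
    have hne : (y - E.toAffine.negY x y) ^ 2 * (x ^ 4 - x ^ 2) ^ 2 ≠ 0 :=
      mul_ne_zero (pow_ne_zero _ hη) (pow_ne_zero _ hd)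
    exact sub_eq_zero.mp ((mul_eq_zero.mp key).resolve_left hne)
  ·
    have key : (y - E.toAffine.negY x y) ^ 3 * (x ^ 4 - x ^ 2) ^ 3 * (E.toAffine.addY (x ^ 4) (x ^ 2) (y ^ 4) M - (E.toAffine.negY (E.toAffine.addX x x L) (E.toAffine.addY x x y L))) = 0 := by
      simp only [addX, addY, negAddY, negY, ha1, ha2, ha3, ha4]
      linear_combination (32*x^19 + 256*x^18 - 96*x^17*y + 1334*x^17 + 32*x^16*y^2 - 456*x^16*y + 4649*x^16 + 160*x^15*y^2 - 1802*x^15*y + 13910*x^15 - 64*x^14*y^3 + 738*x^14*y^2 - 5599*x^14*y + 34360*x^14 + 32*x^13*y^4 - 272*x^13*y^3 + 2187*x^13*y^2 - 13752*x^13*y + 73357*x^13 + 95*x^12*y^4 - 840*x^12*y^3 + 5573*x^12*y^2 - 29843*x^12*y + 139496*x^12 - 38*x^11*y^5 + 367*x^11*y^4 - 2350*x^11*y^3 + 12093*x^11*y^2 - 55826*x^11*y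 + 233681*x^11 + 20*x^10*y^6 - 157*x^10*y^5 + 921*x^10*y^4 - 4880*x^10*y^3 + 22144*x^10*y^2 - 91738*x^10*y + 349592*x^10 - 8*x^9*y^7 + 45*x^9*y^6 - 362*x^9*y^5 + 1904*x^9*y^4 - 8952*x^9*y^3 + 36153*x^9*y^2 - 135080*x^9*y + 469830*x^9 - 18*x^8*y^7 + 152*x^8*y^6 - 867*x^8*y^5 + 3615*x^8*y^4 - 14395*x^8*y^3 + 51731*x^8*y^2 - 175481*x^8*y + 562136*x^8 + 12*x^7*y^8 - 84*x^7*y^7 + 337*x^7*y^6 - 1488*x^7*y^5 + 5511*x^7*y^4 - 19632*x^7*y^3 + 64498*x^7*y^2 - 201632*x^7*y + 599520*x^7 - 8*x^6*y^9 + 19*x^6*y^8 - 139*x^6*y^7 + 526*x^6*y^6 - 2156*x^6*y^5 + 7311*x^6*y^4 - 23765*x^6*y^3 + 71512*x^6*y^2 - 205907*x^6*y + 567270*x^6 - 6*x^5*y^9 + 38*x^5*y^8 - 244*x^5*y^7 + 819*x^5*y^6 - 2882*x^5*y^5 + 8618*x^5*y^4 - 25142*x^5*y^3 + 68849*x^5*y^2 - 182452*x^5*y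 + 466277*x^5 + 4*x^4*y^10 - 45*x^4*y^9 + 85*x^4*y^8 - 402*x^4*y^7 + 1008*x^4*y^6 - 3166*x^4*y^5 + 8297*x^4*y^4 - 22237*x^4*y^3 + 55965*x^4*y^2 - 137759*x^4*y + 327646*x^4 - 8*x^3*y^11 + 5*x^3*y^10 - 56*x^3*y^9 + 92*x^3*y^8 - 404*x^3*y^7 + 940*x^3*y^6 - 2754*x^3*y^5 + 6698*x^3*y^4 - 16622*x^3*y^3 + 38557*x^3*y^2 - 87608*x^3*y + 192393*x^3 - 2*x^2*y^11 + 7*x^2*y^10 - 46*x^2*y^9 + 105*x^2*y^8 - 361*x^2*y^7 + 829*x^2*y^6 - 2107*x^2*y^5 + 4624*x^2*y^4 - 10211*x^2*y^3 + 21290*x^2*y^2 - 43656*x^2*y + 87074*x^2 - 4*x*y^12 - 12*x*y^11 - x*y^10 - 74*x*y^9 + 78*x*y^8 - 328*x*y^7 + 511*x*y^6 - 1236*x*y^5 + 2174*x*y^4 - 4326*x*y^3 + 7791*x*y^2 - 14360*x*y + 25666*x - 8*y^13 - 4*y^12 - 34*y^11 - 7*y^10 - 93*y^9 + 11*y^8 - 196*y^7 + 117*y^6 - 403*y^5 + 441*y^4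 - 904*y^3 + 1303*y^2 - 2233*y + 3521) * hF + (16*x^22 + 128*x^21 - 64*x^20*y + 683*x^20 - 372*x^19*y + 2469*x^19 - 1741*x^18*y + 7738*x^18 - 6061*x^17*y + 20173*x^17 - 17259*x^16*y + 45990*x^16 - 42738*x^15*y + 93885*x^15 - 91513*x^14*y + 170678*x^14 - 174158*x^13*y + 281212*x^13 - 296920*x^12*y + 421503*x^12 - 453108*x^11*y + 572710*x^11 - 623948*x^10*y + 709464*x^10 - 774248*x^9*y + 799612*x^9 - 860627*x^8*y + 813966*x^8 - 856048*x^7*y + 747216*x^7 - 754764*x^6*y + 612968*x^6 - 578907*x^5*y + 440495*x^5 - 379892*x^4*y + 272850*x^4 - 206488*x^3*y + 141492*x^3 - 85384*x^2*y + 56368*x^2 - 22896*x*y + 14592*x - 2880*y + 1760) * h2 + (-9*x^16 - 3*x^15*L - 6*x^14*y*L + 12*x^14*y - x^14*L^2 - 4*x^14*L + 24*x^14 + 12*x^13*y^2 - 4*x^13*y*L^2 - 3*x^13*y*L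 + 13*x^13*y - 2*x^13*L^2 + 6*x^13*L + 2*x^13 - 4*x^12*y^2*L^2 - 2*x^12*y^2*L + x^12*y^2 - 4*x^12*y*L^2 + 13*x^12*y*L - 35*x^12*y + 2*x^12*L^2 + 10*x^12*L - 20*x^12 - 36*x^11*y^2 + 12*x^11*y*L^2 + 9*x^11*y*L - 39*x^11*y + 6*x^11*L^2 - 6*x^11 + 12*x^10*y^2*L^2 + 6*x^10*y^2*L - 3*x^10*y^2 + 12*x^10*y*L^2 - 3*x^10*y*L + 33*x^10*y - 6*x^10*L + 6*x^10 + 36*x^9*y^2 - 12*x^9*y*L^2 - 9*x^9*y*L + 39*x^9*y - 6*x^9*L^2 - 6*x^9*L + 6*x^9 - 12*x^8*y^2*L^2 - 6*x^8*y^2*L + 3*x^8*y^2 - 12*x^8*y*L^2 - 9*x^8*y*L - 9*x^8*y - 2*x^8*L^2 - 2*x^8*L - 3*x^8 - 12*x^7*y^2 + 4*x^7*y*L^2 + 3*x^7*y*L - 13*x^7*y + 2*x^7*L^2 + 3*x^7*L - 2*x^7 + 4*x^6*y^2*L^2 + 2*x^6*y^2*L - x^6*y^2 + 4*x^6*y*L^2 + 5*x^6*y*L - x^6*y + x^6*L^2 + 2*x^6*L + 2*x^6) * hL + (2*x^15 + 12*x^14*y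 + 6*x^14 + 24*x^13*y^2 + 24*x^13*y + 3*x^13 + 16*x^12*y^3 + 24*x^12*y^2 - 6*x^12*y - 7*x^12 - 36*x^11*y^2 - 36*x^11*y - x^11*M^2 - 2*x^11*M - 10*x^11 - 24*x^10*y^3 - 36*x^10*y^2 - 6*x^10*y*M^2 - 12*x^10*y*M - 24*x^10*y - 3*x^10*M^2 - 6*x^10*M - 6*x^10 - 12*x^9*y^2*M^2 - 24*x^9*y^2*M - 12*x^9*y^2 - 12*x^9*y*M^2 - 24*x^9*y*M - 12*x^9*y - x^9*M^2 - 3*x^9*M - 2*x^9 - 8*x^8*y^3*M^2 - 16*x^8*y^3*M - 8*x^8*y^3 - 12*x^8*y^2*M^2 - 24*x^8*y^2*M - 12*x^8*y^2 + 6*x^8*y*M^2 + 6*x^8*y*M + 5*x^8*M^2 + 7*x^8*M + 2*x^8 - x^7*y^4*M - 2*x^7*y^4 + 24*x^7*y^2*M^2 + 35*x^7*y^2*M + 10*x^7*y^2 + 24*x^7*y*M^2 + 36*x^7*y*M + 12*x^7*y + 5*x^7*M^2 + 7*x^7*M + x^7 - 6*x^6*y^5*M - 12*x^6*y^5 - 3*x^6*y^4*M - 6*x^6*y^4 + 16*x^6*y^3*M^2 + 18*x^6*y^3*M - 4*x^6*y^3 + 24*x^6*y^2*M^2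 + 33*x^6*y^2*M + 6*x^6*y^2 + 6*x^6*y*M^2 + 6*x^6*y*M - 6*x^6*y - x^6*M^2 - 3*x^6*M - 5*x^6 - 12*x^5*y^6*M - 24*x^5*y^6 - 12*x^5*y^5*M - 24*x^5*y^5 - 14*x^5*y^4*M - 30*x^5*y^4 - 12*x^5*y^3*M - 24*x^5*y^3 - 12*x^5*y^2*M^2 - 26*x^5*y^2*M - 30*x^5*y^2 - 12*x^5*y*M^2 - 24*x^5*y*M - 24*x^5*y - 3*x^5*M^2 - 5*x^5*M - 6*x^5 - 8*x^4*y^7*M - 16*x^4*y^7 - 12*x^4*y^6*M - 24*x^4*y^6 - 8*x^4*y^5*M - 28*x^4*y^5 - 10*x^4*y^4*M - 26*x^4*y^4 - 8*x^4*y^3*M^2 - 16*x^4*y^3*M - 28*x^4*y^3 - 12*x^4*y^2*M^2 - 22*x^4*y^2*M - 26*x^4*y^2 - 6*x^4*y*M^2 - 6*x^4*y*M - 12*x^4*y - x^4*M^2 + x^4*M - 2*x^4 - x^3*y^8 + 12*x^3*y^6*M - 2*x^3*y^6 + 12*x^3*y^5*M + 15*x^3*y^4*M - 3*x^3*y^4 + 12*x^3*y^3*M + 15*x^3*y^2*M - 2*x^3*y^2 + 12*x^3*y*M + 3*x^3*M - x^3 - 6*x^2*y^9 - 3*x^2*y^8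 + 8*x^2*y^7*M - 12*x^2*y^7 + 12*x^2*y^6*M - 6*x^2*y^6 + 14*x^2*y^5*M - 18*x^2*y^5 + 13*x^2*y^4*M - 9*x^2*y^4 + 14*x^2*y^3*M - 12*x^2*y^3 + 13*x^2*y^2*M - 6*x^2*y^2 + 6*x^2*y*M - 6*x^2*y + x^2*M - 3*x^2 - 12*x*y^10 - 12*x*y^9 - 27*x*y^8 - 24*x*y^7 - 42*x*y^6 - 36*x*y^5 - 33*x*y^4 - 24*x*y^3 - 18*x*y^2 - 12*x*y - 3*x - 8*y^11 - 12*y^10 - 22*y^9 - 25*y^8 - 36*y^7 - 38*y^6 - 34*y^5 - 27*y^4 - 20*y^3 - 14*y^2 - 6*y - 1) * hM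
    have hne : (y - E.toAffine.negY x y) ^ 3 * (x ^ 4 - x ^ 2) ^ 3 ≠ 0 :=
      mul_ne_zero (pow_ne_zero _ hη) (pow_ne_zero _ hd)
    exact sub_eq_zero.mp ((mul_eq_zero.mp key).resolve_left hne)

theorem ord_11001 (E : WeierstrassCurve K) (h2 : (2 : K) = 0)
    (ha1 : E.a₁ = 1) (ha2 : E.a₂ = 1) (ha3 : E.a₃ = 0) (ha4 : E.a₄ = 0) (ha6 : E.a₆ = 1)
    {x y : K} (h : E.toAffine.Nonsingular x y) (hx0 : x ≠ 0) (hx1 : x ≠ 1)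
    (hφ : E.toAffine.Nonsingular (x ^ 2) (y ^ 2))
    (h4 : E.toAffine.Nonsingular (x ^ 4) (y ^ 4)) :
    Point.some (x ^ 4) (y ^ 4) h4 + -Point.some (x ^ 2) (y ^ 2) hφ + (Point.some x y h + Point.some x y h) = 0 := by
  have hF := (equation_iff x y).mp h.1
  rw [ha1, ha2, ha3, ha4, ha6] at hF
  have hη : y - E.toAffine.negY x y ≠ 0 := by
    intro h0
    apply hx0
    simp only [negY, ha1, ha3] at h0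
    linear_combination h0 - y * h2
  have hd : x ^ 4 - x ^ 2 ≠ 0 := by
    intro h0
    have h3 : x ^ 2 * (x - 1) ^ 2 = 0 := by linear_combination h0 - (x ^ 2 * (x - 1)) * h2
    rcases mul_eq_zero.mp h3 with h5 | h5
    · exact hx0 (pow_eq_zero_iff (two_ne_zero) |>.mp h5)
    · exact hx1 (sub_eq_zero.mp (pow_eq_zero_iff (two_ne_zero) |>.mp h5))
  obtain ⟨L, hL⟩ : ∃ L : K, L * (y - E.toAffine.negY x y)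
      = 3 * x ^ 2 + 2 * E.a₂ * x + E.a₄ - E.a₁ * y := ⟨_, div_mul_cancel₀ _ hη⟩
  obtain ⟨M, hM⟩ : ∃ M : K, M * (x ^ 4 - x ^ 2) = y ^ 4 - E.toAffine.negY (x ^ 2) (y ^ 2) := ⟨_, div_mul_cancel₀ _ hd⟩
  obtain ⟨hC, e2⟩ := add_self_some h hη hL
  rw [Point.neg_some]
  obtain ⟨hS, eS⟩ := add_some_some h4 _ hd hM
  rw [e2, eS]
  simp only [negY, ha1, ha2, ha3, ha4] at hL hM
  refine Point.add_of_Y_eq ?_ ?_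
  ·
    have key : (y - E.toAffine.negY x y) ^ 2 * (x ^ 4 - x ^ 2) ^ 2 * (E.toAffine.addX (x ^ 4) (x ^ 2) M - (E.toAffine.addX x x L)) = 0 := by
      simp only [addX, addY, negAddY, negY, ha1, ha2, ha3, ha4]
      linear_combination (41*x^11 - 12*x^10*y + 133*x^10 + 4*x^9*y^2 - 55*x^9*y + 197*x^9 + 25*x^8*y^2 - 86*x^8*y + 257*x^8 - 8*x^7*y^3 + 49*x^7*y^2 - 97*x^7*y + 349*x^7 + 4*x^6*y^4 - 22*x^6*y^3 + 50*x^6*y^2 - 158*x^6*y + 280*x^6 + 13*x^5*y^4 - 15*x^5*y^3 + 80*x^5*y^2 - 121*x^5*y + 256*x^5 - 4*x^4*y^5 + 14*x^4*y^4 - 24*x^4*y^3 + 78*x^4*y^2 - 72*x^4*y + 252*x^4 + 4*x^3*y^6 - 5*x^3*y^5 + 16*x^3*y^4 - 32*x^3*y^3 + 32*x^3*y^2 - 108*x^3*y + 48*x^3 + 5*x^2*y^6 + 27*x^2*y^4 + 64*x^2*y^2 + 112*x^2 - 4*x*y^5 - 16*x*y^3 - 32*x*y + 4*y^8 + 12*y^6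 + 16*y^4 + 16*y^2 + 16) * hF + (20*x^14 - 8*x^13*y + 87*x^13 - 54*x^12*y + 161*x^12 - 135*x^11*y + 241*x^11 - 192*x^10*y + 376*x^10 - 281*x^9*y + 426*x^9 - 365*x^8*y + 398*x^8 - 286*x^7*y + 422*x^7 - 293*x^6*y + 287*x^6 - 240*x^5*y + 208*x^5 - 76*x^4*y + 182*x^4 - 126*x^3*y + 32*x^3 + 64*x^2 - 24*x*y + 8) * h2 + (-3*x^10 - x^9*L - 3*x^9 - 2*x^8*y*L - x^8*y + 6*x^8 + 2*x^7*L + 6*x^7 + 4*x^6*y*L + 2*x^6*y - 3*x^6 - x^5*L - 3*x^5 - 2*x^4*y*L - x^4*y) * hL + (x^6*M + x^6 + 4*x^5*y*M + 4*x^5*y + 4*x^4*y^2*M + 4*x^4*y^2 - x^4*M - 4*x^3*y*M + x^2*y^4 - 4*x^2*y^2*M + x^2*y^2 + 4*x*y^5 + 4*x*y^3 + 4*y^6 + 4*y^4) * hM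
    have hne : (y - E.toAffine.negY x y) ^ 2 * (x ^ 4 - x ^ 2) ^ 2 ≠ 0 :=
      mul_ne_zero (pow_ne_zero _ hη) (pow_ne_zero _ hd)
    exact sub_eq_zero.mp ((mul_eq_zero.mp key).resolve_left hne)
  ·
    have key : (y - E.toAffine.negY x y) ^ 3 * (x ^ 4 - x ^ 2) ^ 3 * (E.toAffine.addY (x ^ 4) (x ^ 2) (y ^ 4) M - (E.toAffine.negY (E.toAffine.addX x x L) (E.toAffine.addY x x y L))) = 0 := by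
      simp only [addX, addY, negAddY, negY, ha1, ha2, ha3, ha4]
      linear_combination (32*x^19 + 464*x^18 - 128*x^17*y + 2218*x^17 + 32*x^16*y^2 - 848*x^16*y + 5585*x^16 + 304*x^15*y^2 - 2450*x^15*y + 10246*x^15 - 96*x^14*y^3 + 1054*x^14*y^2 - 4583*x^14*y + 16980*x^14 + 32*x^13*y^4 - 456*x^13*y^3 + 2049*x^13*y^2 - 7648*x^13*y + 23873*x^13 + 175*x^12*y^4 - 940*x^12*y^3 + 3272*x^12*y^2 - 11188*x^12*y + 27579*x^12 - 70*x^11*y^5 + 423*x^11*y^4 - 1510*x^11*y^3 + 4985*x^11*y^2 - 12742*x^11*y + 30987*x^11 + 20*x^10*y^6 - 211*x^10*y^5 + 630*x^10*y^4 - 2386*x^10*y^3 + 5781*x^10*y^2 - 13853*x^10*y + 30823*x^10 - 8*x^9*y^7 + 85*x^9*y^6 - 322*x^9*y^5 + 965*x^9*y^4 - 2838*x^9*y^3 + 5847*x^9*y^2 - 14284*x^9*y + 24568*x^9 - 42*x^8*y^7 + 127*x^8*y^6 -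 488*x^8*y^5 + 1250*x^8*y^4 - 2685*x^8*y^3 + 6221*x^8*y^2 - 10787*x^8*y + 21678*x^8 + 12*x^7*y^8 - 84*x^7*y^7 + 161*x^7*y^6 - 680*x^7*y^5 + 1039*x^7*y^4 - 2942*x^7*y^3 + 4474*x^7*y^2 - 9170*x^7*y + 14674*x^7 - 8*x^6*y^9 + 31*x^6*y^8 - 103*x^6*y^7 + 267*x^6*y^6 - 586*x^6*y^5 + 1160*x^6*y^4 - 2211*x^6*y^3 + 3472*x^6*y^2 - 6648*x^6*y + 8192*x^6 - 22*x^5*y^9 + 12*x^5*y^8 - 158*x^5*y^7 + 176*x^5*y^6 - 560*x^5*y^5 + 893*x^5*y^4 - 1392*x^5*y^3 + 2836*x^5*y^2 - 2832*x^5*y + 7056*x^5 + 4*x^4*y^10 - 31*x^4*y^9 + 36*x^4*y^8 - 171*x^4*y^7 + 144*x^4*y^6 - 542*x^4*y^5 + 368*x^4*y^4 - 1388*x^4*y^3 + 720*x^4*y^2 - 3052*x^4*y + 1200*x^4 - 8*x^3*y^11 + 5*x^3*y^10 - 40*x^3*y^9 + 42*x^3*y^8 - 96*x^3*y^7 + 189*x^3*y^6 - 160*x^3*y^5 + 544*x^3*y^4 - 224*x^3*y^3 +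 1168*x^3*y^2 - 288*x^3*y + 2112*x^3 - 10*x^2*y^11 - 60*x^2*y^9 - 162*x^2*y^7 - 304*x^2*y^5 - 496*x^2*y^3 - 752*x^2*y - 4*x*y^12 - 8*x*y^10 + 12*x*y^8 + 64*x*y^6 + 128*x*y^4 + 192*x*y^2 + 256*x - 8*y^13 - 32*y^11 - 56*y^9 - 64*y^7 - 64*y^5 - 64*y^3 - 64*y) * hF + (16*x^22 + 248*x^21 - 80*x^20*y + 1341*x^20 - 720*x^19*y + 3918*x^19 - 2755*x^18*y + 8134*x^18 - 6373*x^17*y + 14695*x^17 - 11640*x^16*y + 23240*x^16 - 19108*x^15*y + 30924*x^15 - 26259*x^14*y + 37791*x^14 - 30986*x^13*y + 42775*x^13 - 35114*x^12*y + 41440*x^12 - 34243*x^11*y + 38629*x^11 - 29186*x^10*y + 33607*x^10 - 25915*x^9*y + 23722*x^9 - 17478*x^8*y + 18463*x^8 - 11623*x^7*y + 11465*x^7 - 8522*x^6*y + 5752*x^6 - 2536*x^5*y + 4584*x^5 - 2958*x^4*y + 728*x^4 - 176*x^3*y + 1184*x^3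 - 536*x^2*y + 128*x - 32*y) * h2 + (-9*x^16 - 3*x^15*L - 12*x^15 - 6*x^14*y*L + 12*x^14*y - x^14*L^2 - 3*x^14*L + 22*x^14 + 12*x^13*y^2 - 4*x^13*y*L^2 - 7*x^13*y*L + 5*x^13*y + 9*x^13*L + 36*x^13 - 4*x^12*y^2*L^2 - 2*x^12*y^2*L + 5*x^12*y^2 + 18*x^12*y*L - 36*x^12*y + 3*x^12*L^2 + 9*x^12*L - 12*x^12 - 36*x^11*y^2 + 12*x^11*y*L^2 + 21*x^11*y*L - 15*x^11*y - 9*x^11*L - 36*x^11 + 12*x^10*y^2*L^2 + 6*x^10*y^2*L - 15*x^10*y^2 - 18*x^10*y*L + 36*x^10*y - 3*x^10*L^2 - 9*x^10*L - 6*x^10 + 36*x^9*y^2 - 12*x^9*y*L^2 - 21*x^9*y*L + 15*x^9*y + 3*x^9*L + 12*x^9 - 12*x^8*y^2*L^2 - 6*x^8*y^2*L + 15*x^8*y^2 + 6*x^8*y*L - 12*x^8*y + x^8*L^2 + 3*x^8*L + 5*x^8 - 12*x^7*y^2 + 4*x^7*y*L^2 + 7*x^7*y*L - 5*x^7*y + 4*x^6*y^2*L^2 + 2*x^6*y^2*L - 5*x^6*y^2) * hL +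 (2*x^15 + 12*x^14*y + 24*x^13*y^2 - 3*x^13 + 16*x^12*y^3 - 18*x^12*y - 36*x^11*y^2 - x^11*M^2 - 2*x^11*M - 24*x^10*y^3 - 6*x^10*y*M^2 - 12*x^10*y*M - 12*x^9*y^2*M^2 - 24*x^9*y^2*M + 2*x^9*M^2 + 3*x^9*M - x^9 - 8*x^8*y^3*M^2 - 16*x^8*y^3*M + 12*x^8*y*M^2 + 18*x^8*y*M - 6*x^8*y - x^7*y^4*M - 2*x^7*y^4 + 24*x^7*y^2*M^2 + 35*x^7*y^2*M - 14*x^7*y^2 - x^7*M^2 - x^7*M + x^7 - 6*x^6*y^5*M - 12*x^6*y^5 + 16*x^6*y^3*M^2 + 18*x^6*y^3*M - 20*x^6*y^3 - 6*x^6*y*M^2 - 6*x^6*y*M + 6*x^6*y - 12*x^5*y^6*M - 24*x^5*y^6 - 11*x^5*y^4*M - 24*x^5*y^4 - 12*x^5*y^2*M^2 - 11*x^5*y^2*M + 12*x^5*y^2 - 8*x^4*y^7*M - 16*x^4*y^7 - 2*x^4*y^5*M - 16*x^4*y^5 - 8*x^4*y^3*M^2 - 2*x^4*y^3*M + 8*x^4*y^3 - x^3*y^8 + 12*x^3*y^6*M - 2*x^3*y^6 + 12*x^3*y^4*M - x^3*y^4 - 6*x^2*y^9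 + 8*x^2*y^7*M - 12*x^2*y^7 + 8*x^2*y^5*M - 6*x^2*y^5 - 12*x*y^10 - 24*x*y^8 - 12*x*y^6 - 8*y^11 - 16*y^9 - 8*y^7) * hM
    have hne : (y - E.toAffine.negY x y) ^ 3 * (x ^ 4 - x ^ 2) ^ 3 ≠ 0 :=
      mul_ne_zero (pow_ne_zero _ hη) (pow_ne_zero _ hd)
    exact sub_eq_zero.mp ((mul_eq_zero.mp key).resolve_left hne)

theorem ord_11010 (E : WeierstrassCurve K) (h2 : (2 : K) = 0)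
    (ha1 : E.a₁ = 1) (ha2 : E.a₂ = 1) (ha3 : E.a₃ = 0) (ha4 : E.a₄ = 1) (ha6 : E.a₆ = 0)
    {x y : K} (h : E.toAffine.Nonsingular x y) (hx0 : x ≠ 0) (hx1 : x ≠ 1)
    (hφ : E.toAffine.Nonsingular (x ^ 2) (y ^ 2))
    (h4 : E.toAffine.Nonsingular (x ^ 4) (y ^ 4)) :
    Point.some (x ^ 4) (y ^ 4) h4 + -Point.some (x ^ 2) (y ^ 2) hφ + (Point.some x y h + Point.some x y h) = 0 := by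
  have hF := (equation_iff x y).mp h.1
  rw [ha1, ha2, ha3, ha4, ha6] at hF
  have hη : y - E.toAffine.negY x y ≠ 0 := by
    intro h0
    apply hx0
    simp only [negY, ha1, ha3] at h0
    linear_combination h0 - y * h2
  have hd : x ^ 4 - x ^ 2 ≠ 0 := by
    intro h0
    have h3 : x ^ 2 * (x - 1) ^ 2 = 0 := by linear_combination h0 - (x ^ 2 * (x - 1)) * h2
    rcases mul_eq_zero.mp h3 with h5 | h5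
    · exact hx0 (pow_eq_zero_iff (two_ne_zero) |>.mp h5)
    · exact hx1 (sub_eq_zero.mp (pow_eq_zero_iff (two_ne_zero) |>.mp h5))
  obtain ⟨L, hL⟩ : ∃ L : K, L * (y - E.toAffine.negY x y)
      = 3 * x ^ 2 + 2 * E.a₂ * x + E.a₄ - E.a₁ * y := ⟨_, div_mul_cancel₀ _ hη⟩
  obtain ⟨M, hM⟩ : ∃ M : K, M * (x ^ 4 - x ^ 2) = y ^ 4 - E.toAffine.negY (x ^ 2) (y ^ 2) := ⟨_, div_mul_cancel₀ _ hd⟩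
  obtain ⟨hC, e2⟩ := add_self_some h hη hL
  rw [Point.neg_some]
  obtain ⟨hS, eS⟩ := add_some_some h4 _ hd hM
  rw [e2, eS]
  simp only [negY, ha1, ha2, ha3, ha4] at hL hM
  refine Point.add_of_Y_eq ?_ ?_
  ·
    have key : (y - E.toAffine.negY x y) ^ 2 * (x ^ 4 - x ^ 2) ^ 2 * (E.toAffine.addX (x ^ 4) (x ^ 2) M - (E.toAffine.addX x x L)) = 0 := by
      simp only [addX, addY, negAddY, negY, ha1, ha2, ha3, ha4]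
      linear_combination (41*x^11 - 12*x^10*y + 149*x^10 + 4*x^9*y^2 - 55*x^9*y + 304*x^9 + 25*x^8*y^2 - 122*x^8*y + 416*x^8 - 8*x^7*y^3 + 61*x^7*y^2 - 171*x^7*y + 403*x^7 + 4*x^6*y^4 - 22*x^6*y^3 + 88*x^6*y^2 - 170*x^6*y + 320*x^6 + 13*x^5*y^4 - 31*x^5*y^3 + 91*x^5*y^2 - 122*x^5*y + 197*x^5 - 4*x^4*y^5 + 22*x^4*y^4 - 30*x^4*y^3 + 70*x^4*y^2 - 64*x^4*y + 82*x^4 + 4*x^3*y^6 - 5*x^3*y^5 + 21*x^3*y^4 - 18*x^3*y^3 + 38*x^3*y^2 - 21*x^3*y + 25*x^3 + 5*x^2*y^6 - 4*x^2*y^5 + 18*x^2*y^4 - 8*x^2*y^3 + 17*x^2*y^2 - 4*x^2*y + 4*x^2 + 4*x*y^6 + 8*x*y^4 + 4*x*y^2 + 4*y^8 + 8*y^6 + 4*y^4) * hF + (20*x^14 - 8*x^13*y + 95*x^13 - 54*x^12*y + 243*x^12 - 167*x^11*y + 428*x^11 - 322*x^10*y + 565*x^10 - 437*x^9*y + 580*x^9 - 441*x^8*y + 467*x^8 - 339*x^7*y + 298*x^7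 - 198*x^6*y + 147*x^6 - 85*x^5*y + 53*x^5 - 25*x^4*y + 14*x^4 - 4*x^3*y + 2*x^3) * h2 + (-3*x^10 - x^9*L - 3*x^9 - 2*x^8*y*L - x^8*y + 5*x^8 + 2*x^7*L + 6*x^7 + 4*x^6*y*L + 2*x^6*y - x^6 - x^5*L - 3*x^5 - 2*x^4*y*L - x^4*y - x^4) * hL + (x^6*M + x^6 + 4*x^5*y*M + 4*x^5*y + 4*x^4*y^2*M + 4*x^4*y^2 - x^4*M - 4*x^3*y*M + x^2*y^4 - 4*x^2*y^2*M + x^2*y^2 + 4*x*y^5 + 4*x*y^3 + 4*y^6 + 4*y^4) * hM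
    have hne : (y - E.toAffine.negY x y) ^ 2 * (x ^ 4 - x ^ 2) ^ 2 ≠ 0 :=
      mul_ne_zero (pow_ne_zero _ hη) (pow_ne_zero _ hd)
    exact sub_eq_zero.mp ((mul_eq_zero.mp key).resolve_left hne)
  ·
    have key : (y - E.toAffine.negY x y) ^ 3 * (x ^ 4 - x ^ 2) ^ 3 * (E.toAffine.addY (x ^ 4) (x ^ 2) (y ^ 4) M - (E.toAffine.negY (E.toAffine.addX x x L) (E.toAffine.addY x x y L))) = 0 := by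
      simp only [addX, addY, negAddY, negY, ha1, ha2, ha3, ha4]
      linear_combination (32*x^19 + 464*x^18 - 128*x^17*y + 2458*x^17 + 32*x^16*y^2 - 880*x^16*y + 7789*x^16 + 304*x^15*y^2 - 3146*x^15*y + 17386*x^15 - 96*x^14*y^3 + 1230*x^14*y^2 - 7451*x^14*y + 29261*x^14 + 32*x^13*y^4 - 488*x^13*y^3 + 3109*x^13*y^2 - 12998*x^13*y + 38724*x^13 + 175*x^12*y^4 - 1332*x^12*y^3 + 5558*x^12*y^2 - 17530*x^12*y + 41538*x^12 - 70*x^11*y^5 + 535*x^11*y^4 - 2534*x^11*y^3 + 7575*x^11*y^2 - 18802*x^11*y + 36645*x^11 + 20*x^10*y^6 - 243*x^10*y^5 + 1043*x^10*y^4 - 3550*x^10*y^3 + 8179*x^10*y^2 - 16494*x^10*y + 26628*x^10 - 8*x^9*y^7 + 85*x^9*y^6 - 500*x^9*y^5 + 1454*x^9*y^4 - 3832*x^9*y^3 + 7040*x^9*y^2 - 11910*x^9*y + 15871*x^9 - 42*x^8*y^7 + 187*x^8*y^6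 - 748*x^8*y^5 + 1567*x^8*y^4 - 3313*x^8*y^3 + 4887*x^8*y^2 - 6990*x^8*y + 7688*x^8 + 12*x^7*y^8 - 108*x^7*y^7 + 271*x^7*y^6 - 806*x^7*y^5 + 1302*x^7*y^4 - 2316*x^7*y^3 + 2743*x^7*y^2 - 3308*x^7*y + 2964*x^7 - 8*x^6*y^9 + 31*x^6*y^8 - 163*x^6*y^7 + 284*x^6*y^6 - 711*x^6*y^5 + 860*x^6*y^4 - 1322*x^6*y^3 + 1227*x^6*y^2 - 1242*x^6*y + 874*x^6 - 22*x^5*y^9 + 36*x^5*y^8 - 182*x^5*y^7 + 206*x^5*y^6 - 482*x^5*y^5 + 433*x^5*y^4 - 584*x^5*y^3 + 416*x^5*y^2 - 356*x^5*y + 181*x^5 + 4*x^4*y^10 - 47*x^4*y^9 + 43*x^4*y^8 - 177*x^4*y^7 + 129*x^4*y^6 - 263*x^4*y^5 + 165*x^4*y^4 - 199*x^4*y^3 + 95*x^4*y^2 - 74*x^4*y + 20*x^4 - 8*x^3*y^11 + 5*x^3*y^10 - 46*x^3*y^9 + 23*x^3*y^8 - 106*x^3*y^7 + 43*x^3*y^6 - 114*x^3*y^5 + 37*x^3*y^4 - 54*x^3*y^3 + 12*x^3*y^2 -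 8*x^3*y - 10*x^2*y^11 + 4*x^2*y^10 - 46*x^2*y^9 + 12*x^2*y^8 - 70*x^2*y^7 + 12*x^2*y^6 - 42*x^2*y^5 + 4*x^2*y^4 - 8*x^2*y^3 - 4*x*y^12 - 8*x*y^11 - 12*x*y^10 - 24*x*y^9 - 12*x*y^8 - 24*x*y^7 - 4*x*y^6 - 8*x*y^5 - 8*y^13 - 24*y^11 - 24*y^9 - 8*y^7) * hF + (16*x^22 + 248*x^21 - 80*x^20*y + 1477*x^20 - 736*x^19*y + 5356*x^19 - 3303*x^18*y + 13803*x^18 - 9633*x^17*y + 27191*x^17 - 20468*x^16*y + 42693*x^16 - 33595*x^15*y + 54817*x^15 - 44084*x^14*y + 58500*x^14 - 47252*x^13*y + 52394*x^13 - 41910*x^12*y + 39522*x^12 - 30951*x^11*y + 25058*x^11 - 19011*x^10*y + 13260*x^10 - 9624*x^9*y + 5777*x^9 - 3950*x^8*y + 2020*x^8 - 1278*x^7*y + 541*x^7 - 310*x^6*y + 101*x^6 - 51*x^5*y + 10*x^5 - 4*x^4*y) * h2 + (-9*x^16 - 3*x^15*L - 12*x^15 - 6*x^14*y*L +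 12*x^14*y - x^14*L^2 - 3*x^14*L + 16*x^14 + 12*x^13*y^2 - 4*x^13*y*L^2 - 7*x^13*y*L + 5*x^13*y + 8*x^13*L + 31*x^13 - 4*x^12*y^2*L^2 - 2*x^12*y^2*L + 5*x^12*y^2 + 16*x^12*y*L - 36*x^12*y + 3*x^12*L^2 + 9*x^12*L + 5*x^12 - 36*x^11*y^2 + 12*x^11*y*L^2 + 21*x^11*y*L - 15*x^11*y - 6*x^11*L - 21*x^11 + 12*x^10*y^2*L^2 + 6*x^10*y^2*L - 15*x^10*y^2 - 12*x^10*y*L + 36*x^10*y - 3*x^10*L^2 - 9*x^10*L - 21*x^10 + 36*x^9*y^2 - 12*x^9*y*L^2 - 21*x^9*y*L + 15*x^9*y - 3*x^9 - 12*x^8*y^2*L^2 - 6*x^8*y^2*L + 15*x^8*y^2 - 12*x^8*y + x^8*L^2 + 3*x^8*L + 8*x^8 - 12*x^7*y^2 + 4*x^7*y*L^2 + 7*x^7*y*L - 5*x^7*y + x^7*L + 5*x^7 + 4*x^6*y^2*L^2 + 2*x^6*y^2*L - 5*x^6*y^2 + 2*x^6*y*L + x^6) * hL + (2*x^15 + 12*x^14*y + 24*x^13*y^2 - 3*x^13 + 16*x^12*y^3 - 18*x^12*y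 - 36*x^11*y^2 - x^11*M^2 - 2*x^11*M - 24*x^10*y^3 - 6*x^10*y*M^2 - 12*x^10*y*M - 12*x^9*y^2*M^2 - 24*x^9*y^2*M + 2*x^9*M^2 + 3*x^9*M - x^9 - 8*x^8*y^3*M^2 - 16*x^8*y^3*M + 12*x^8*y*M^2 + 18*x^8*y*M - 6*x^8*y - x^7*y^4*M - 2*x^7*y^4 + 24*x^7*y^2*M^2 + 35*x^7*y^2*M - 14*x^7*y^2 - x^7*M^2 - x^7*M + x^7 - 6*x^6*y^5*M - 12*x^6*y^5 + 16*x^6*y^3*M^2 + 18*x^6*y^3*M - 20*x^6*y^3 - 6*x^6*y*M^2 - 6*x^6*y*M + 6*x^6*y - 12*x^5*y^6*M - 24*x^5*y^6 - 11*x^5*y^4*M - 24*x^5*y^4 - 12*x^5*y^2*M^2 - 11*x^5*y^2*M + 12*x^5*y^2 - 8*x^4*y^7*M - 16*x^4*y^7 - 2*x^4*y^5*M - 16*x^4*y^5 - 8*x^4*y^3*M^2 - 2*x^4*y^3*M + 8*x^4*y^3 - x^3*y^8 + 12*x^3*y^6*M - 2*x^3*y^6 + 12*x^3*y^4*M - x^3*y^4 - 6*x^2*y^9 + 8*x^2*y^7*M - 12*x^2*y^7 + 8*x^2*y^5*M - 6*x^2*y^5 - 12*x*y^10 - 24*x*y^8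 - 12*x*y^6 - 8*y^11 - 16*y^9 - 8*y^7) * hM
    have hne : (y - E.toAffine.negY x y) ^ 3 * (x ^ 4 - x ^ 2) ^ 3 ≠ 0 :=
      mul_ne_zero (pow_ne_zero _ hη) (pow_ne_zero _ hd)
    exact sub_eq_zero.mp ((mul_eq_zero.mp key).resolve_left hne)

theorem ord_11100 (E : WeierstrassCurve K) (h2 : (2 : K) = 0)
    (ha1 : E.a₁ = 1) (ha2 : E.a₂ = 1) (ha3 : E.a₃ = 1) (ha4 : E.a₄ = 0) (ha6 : E.a₆ = 0)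
    {x y : K} (h : E.toAffine.Nonsingular x y) (hx0 : x ≠ 0) (hx1 : x ≠ 1)
    (hφ : E.toAffine.Nonsingular (x ^ 2) (y ^ 2))
    (h4 : E.toAffine.Nonsingular (x ^ 4) (y ^ 4)) :
    Point.some (x ^ 4) (y ^ 4) h4 + Point.some (x ^ 2) (y ^ 2) hφ + (Point.some x y h + Point.some x y h) = 0 := by
  have hF := (equation_iff x y).mp h.1
  rw [ha1, ha2, ha3, ha4, ha6] at hF
  have hη : y - E.toAffine.negY x y ≠ 0 := by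
    intro h0
    apply hx1
    simp only [negY, ha1, ha3] at h0
    linear_combination h0 - (y + 1) * h2
  have hd : x ^ 4 - x ^ 2 ≠ 0 := by
    intro h0
    have h3 : x ^ 2 * (x - 1) ^ 2 = 0 := by linear_combination h0 - (x ^ 2 * (x - 1)) * h2
    rcases mul_eq_zero.mp h3 with h5 | h5
    · exact hx0 (pow_eq_zero_iff (two_ne_zero) |>.mp h5)
    · exact hx1 (sub_eq_zero.mp (pow_eq_zero_iff (two_ne_zero) |>.mp h5))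
  obtain ⟨L, hL⟩ : ∃ L : K, L * (y - E.toAffine.negY x y)
      = 3 * x ^ 2 + 2 * E.a₂ * x + E.a₄ - E.a₁ * y := ⟨_, div_mul_cancel₀ _ hη⟩
  obtain ⟨M, hM⟩ : ∃ M : K, M * (x ^ 4 - x ^ 2) = y ^ 4 - y ^ 2 := ⟨_, div_mul_cancel₀ _ hd⟩
  obtain ⟨hC, e2⟩ := add_self_some h hη hL
  obtain ⟨hS, eS⟩ := add_some_some h4 _ hd hM
  rw [e2, eS]
  simp only [negY, ha1, ha2, ha3, ha4] at hL hM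
  refine Point.add_of_Y_eq ?_ ?_
  ·
    have key : (y - E.toAffine.negY x y) ^ 2 * (x ^ 4 - x ^ 2) ^ 2 * (E.toAffine.addX (x ^ 4) (x ^ 2) M - (E.toAffine.addX x x L)) = 0 := by
      simp only [addX, addY, negAddY, negY, ha1, ha2, ha3, ha4]
      linear_combination (41*x^11 - 12*x^10*y + 183*x^10 + 4*x^9*y^2 - 67*x^9*y + 444*x^9 + 25*x^8*y^2 - 179*x^8*y + 679*x^8 - 8*x^7*y^3 + 75*x^7*y^2 - 280*x^7*y + 686*x^7 + 4*x^6*y^4 - 30*x^6*y^3 + 115*x^6*y^2 - 272*x^6*y + 506*x^6 + 13*x^5*y^4 - 49*x^5*y^3 + 100*x^5*y^2 - 172*x^5*y + 279*x^5 - 4*x^4*y^5 + 24*x^4*y^4 - 41*x^4*y^3 + 50*x^4*y^2 - 74*x^4*y + 104*x^4 + 4*x^3*y^6 - 9*x^3*y^5 + 11*x^3*y^4 - 16*x^3*y^3 + 19*x^3*y^2 - 21*x^3*y + 26*x^3 + 5*x^2*y^6 - 7*x^2*y^5 - 3*x^2*y^4 - 2*x^2*y^3 + 8*x^2*y^2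 - 3*x^2*y + 4*x^2 + 2*x*y^6 - 3*x*y^5 + x*y^3 + 4*y^8 - 7*y^6 - y^5 + 3*y^4 + y^3) * hF + (20*x^14 - 8*x^13*y + 111*x^13 - 62*x^12*y + 309*x^12 - 233*x^11*y + 556*x^11 - 537*x^10*y + 690*x^10 - 831*x^9*y + 610*x^9 - 910*x^8*y + 393*x^8 - 730*x^7*y + 184*x^7 - 439*x^6*y + 62*x^6 - 199*x^5*y + 15*x^5 - 66*x^4*y + 2*x^4 - 15*x^3*y - 2*x^2*y) * h2 + (-3*x^10 - x^9*L - 3*x^9 - 2*x^8*y*L - x^8*y - x^8*L + 5*x^8 + 2*x^7*L + 6*x^7 + 4*x^6*y*L + 2*x^6*y + 2*x^6*L - x^6 - x^5*L - 3*x^5 - 2*x^4*y*L - x^4*y - x^4*L - x^4) * hL + (x^6*M + x^6 + 4*x^5*y*M + 4*x^5*y + 2*x^5*M + 2*x^5 + 4*x^4*y^2*M + 4*x^4*y^2 + 4*x^4*y*M + 4*x^4*y - 4*x^3*y*M - 4*x^3*y - 2*x^3*M - 2*x^3 + x^2*y^4 - 4*x^2*y^2*M - 5*x^2*y^2 - 4*x^2*y*M - 4*x^2*y - x^2*M - x^2 + 4*x*y^5 + 2*x*y^4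 - 4*x*y^3 - 2*x*y^2 + 4*y^6 + 4*y^5 - 3*y^4 - 4*y^3 - y^2) * hM
    have hne : (y - E.toAffine.negY x y) ^ 2 * (x ^ 4 - x ^ 2) ^ 2 ≠ 0 :=
      mul_ne_zero (pow_ne_zero _ hη) (pow_ne_zero _ hd)
    exact sub_eq_zero.mp ((mul_eq_zero.mp key).resolve_left hne)
  ·
    have key : (y - E.toAffine.negY x y) ^ 3 * (x ^ 4 - x ^ 2) ^ 3 * (E.toAffine.addY (x ^ 4) (x ^ 2) (y ^ 4) M - (E.toAffine.negY (E.toAffine.addX x x L) (E.toAffine.addY x x y L))) = 0 := by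
      simp only [addX, addY, negAddY, negY, ha1, ha2, ha3, ha4]
      linear_combination (32*x^19 + 496*x^18 - 128*x^17*y + 3130*x^17 + 32*x^16*y^2 - 1040*x^16*y + 11779*x^16 + 336*x^15*y^2 - 4402*x^15*y + 30507*x^15 - 96*x^14*y^3 + 1614*x^14*y^2 - 12031*x^14*y + 57920*x^14 + 32*x^13*y^4 - 584*x^13*y^3 + 4711*x^13*y^2 - 23236*x^13*y + 83648*x^13 + 207*x^12*y^4 - 1868*x^12*y^3 + 9353*x^12*y^2 - 33277*x^12*y + 94521*x^12 - 70*x^11*y^5 + 724*x^11*y^4 - 3810*x^11*y^3 + 13309*x^11*y^2 - 36308*x^11*y + 85251*x^11 + 20*x^10*y^6 - 287*x^10*y^5 + 1556*x^10*y^4 - 5314*x^10*y^3 + 13956*x^10*y^2 - 30915*x^10*y + 62054*x^10 - 8*x^9*y^7 + 105*x^9*y^6 - 640*x^9*y^5 + 2150*x^9*y^4 - 5290*x^9*y^3 + 11047*x^9*y^2 - 20946*x^9*y + 36682*x^9 - 42*x^8*y^7 + 262*x^8*y^6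 - 890*x^8*y^5 + 2002*x^8*y^4 - 3861*x^8*y^3 + 6783*x^8*y^2 - 11315*x^8*y + 17674*x^8 + 12*x^7*y^8 - 120*x^7*y^7 + 367*x^7*y^6 - 724*x^7*y^5 + 1299*x^7*y^4 - 2136*x^7*y^3 + 3287*x^7*y^2 - 4838*x^7*y + 6908*x^7 - 8*x^6*y^9 + 43*x^6*y^8 - 153*x^6*y^7 + 289*x^6*y^6 - 378*x^6*y^5 + 604*x^6*y^4 - 908*x^6*y^3 + 1240*x^6*y^2 - 1634*x^6*y + 2144*x^6 - 22*x^5*y^9 + 57*x^5*y^8 - 84*x^5*y^7 + 135*x^5*y^6 - 176*x^5*y^5 + 203*x^5*y^4 - 272*x^5*y^3 + 350*x^5*y^2 - 422*x^5*y + 506*x^5 + 4*x^4*y^10 - 43*x^4*y^9 + 39*x^4*y^8 + 16*x^4*y^7 + 34*x^4*y^6 - 81*x^4*y^5 + 48*x^4*y^4 - 51*x^4*y^3 + 70*x^4*y^2 - 76*x^4*y + 84*x^4 - 8*x^3*y^11 + 9*x^3*y^10 + 2*x^3*y^9 + 19*x^3*y^8 - 10*x^3*y^7 - 20*x^3*y^6 - 12*x^3*y^5 + 20*x^3*y^4 - 4*x^3*y^3 + 8*x^3*y^2 - 8*x^3*y +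 8*x^3 - 10*x^2*y^11 + 7*x^2*y^10 + 34*x^2*y^9 + 4*x^2*y^8 - 45*x^2*y^7 - 18*x^2*y^6 + 15*x^2*y^5 + 11*x^2*y^4 + 2*x^2*y^3 - 4*x*y^12 - 4*x*y^11 + 15*x*y^10 + 8*x*y^9 - 16*x*y^8 - 6*x*y^7 + 5*x*y^6 + 2*x*y^5 - 8*y^13 - 4*y^12 + 22*y^11 + 13*y^10 - 19*y^9 - 14*y^8 + 4*y^7 + 5*y^6 + y^5) * hF + (16*x^22 + 264*x^21 - 80*x^20*y + 1813*x^20 - 848*x^19*y + 7455*x^19 - 4531*x^18*y + 21131*x^18 - 15665*x^17*y + 44187*x^17 - 38757*x^16*y + 70807*x^16 - 72439*x^15*y + 89165*x^15 - 105626*x^14*y + 89894*x^14 - 122823*x^13*y + 73566*x^13 - 115816*x^12*y + 49326*x^12 - 89648*x^11*y + 27212*x^11 - 57389*x^10*y + 12319*x^10 - 30457*x^9*y + 4525*x^9 - 13349*x^8*y + 1320*x^8 - 4777*x^7*y + 294*x^7 - 1366*x^6*y + 46*x^6 - 299*x^5*y + 4*x^5 - 46*x^4*y - 4*x^3*y)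 * h2 + (-9*x^16 - 3*x^15*L - 12*x^15 - 6*x^14*y*L + 12*x^14*y - x^14*L^2 - 6*x^14*L + 25*x^14 + 12*x^13*y^2 - 4*x^13*y*L^2 - 7*x^13*y*L + 17*x^13*y - 2*x^13*L^2 + 5*x^13*L + 39*x^13 - 4*x^12*y^2*L^2 - 2*x^12*y^2*L + 5*x^12*y^2 - 4*x^12*y*L^2 + 15*x^12*y*L - 31*x^12*y + 2*x^12*L^2 + 17*x^12*L - 20*x^12 - 36*x^11*y^2 + 12*x^11*y*L^2 + 21*x^11*y*L - 51*x^11*y + 6*x^11*L^2 + 3*x^11*L - 45*x^11 + 12*x^10*y^2*L^2 + 6*x^10*y^2*L - 15*x^10*y^2 + 12*x^10*y*L^2 - 9*x^10*y*L + 21*x^10*y - 15*x^10*L + 36*x^9*y^2 - 12*x^9*y*L^2 - 21*x^9*y*L + 51*x^9*y - 6*x^9*L^2 - 9*x^9*L + 21*x^9 - 12*x^8*y^2*L^2 - 6*x^8*y^2*L + 15*x^8*y^2 - 12*x^8*y*L^2 - 3*x^8*y*L + 3*x^8*y - 2*x^8*L^2 + 3*x^8*L + 5*x^8 - 12*x^7*y^2 + 4*x^7*y*L^2 + 7*x^7*y*L - 17*x^7*y + 2*x^7*L^2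 + 4*x^7*L - 3*x^7 + 4*x^6*y^2*L^2 + 2*x^6*y^2*L - 5*x^6*y^2 + 4*x^6*y*L^2 + 3*x^6*y*L - 5*x^6*y + x^6*L^2 + x^6*L - x^6) * hL + (2*x^15 + 12*x^14*y + 6*x^14 + 24*x^13*y^2 + 24*x^13*y + 3*x^13 + 16*x^12*y^3 + 24*x^12*y^2 - 6*x^12*y - 7*x^12 - 36*x^11*y^2 - 36*x^11*y - x^11*M^2 - 2*x^11*M - 9*x^11 - 24*x^10*y^3 - 36*x^10*y^2 - 6*x^10*y*M^2 - 12*x^10*y*M - 18*x^10*y - 3*x^10*M^2 - 6*x^10*M - 3*x^10 - 12*x^9*y^2*M^2 - 24*x^9*y^2*M - 12*x^9*y*M^2 - 24*x^9*y*M - x^9*M^2 - 2*x^9*M + x^9 - 8*x^8*y^3*M^2 - 16*x^8*y^3*M - 12*x^8*y^2*M^2 - 24*x^8*y^2*M + 6*x^8*y*M^2 + 12*x^8*y*M + 6*x^8*y + 5*x^8*M^2 + 10*x^8*M + 3*x^8 - x^7*y^4*M - 2*x^7*y^4 + 24*x^7*y^2*M^2 + 49*x^7*y^2*M + 14*x^7*y^2 + 24*x^7*y*M^2 + 48*x^7*y*M + 12*x^7*y + 5*x^7*M^2 + 10*x^7*M +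 3*x^7 - 6*x^6*y^5*M - 12*x^6*y^5 - 3*x^6*y^4*M - 6*x^6*y^4 + 16*x^6*y^3*M^2 + 38*x^6*y^3*M + 20*x^6*y^3 + 24*x^6*y^2*M^2 + 51*x^6*y^2*M + 18*x^6*y^2 + 6*x^6*y*M^2 + 12*x^6*y*M + 6*x^6*y - x^6*M^2 - 2*x^6*M + x^6 - 12*x^5*y^6*M - 24*x^5*y^6 - 12*x^5*y^5*M - 24*x^5*y^5 + 10*x^5*y^4*M + 20*x^5*y^4 + 12*x^5*y^3*M + 24*x^5*y^3 - 12*x^5*y^2*M^2 - 22*x^5*y^2*M + 4*x^5*y^2 - 12*x^5*y*M^2 - 24*x^5*y*M - 3*x^5*M^2 - 6*x^5*M - 8*x^4*y^7*M - 16*x^4*y^7 - 12*x^4*y^6*M - 24*x^4*y^6 + 8*x^4*y^5*M + 16*x^4*y^5 + 14*x^4*y^4*M + 28*x^4*y^4 - 8*x^4*y^3*M^2 - 16*x^4*y^3*M - 12*x^4*y^2*M^2 - 26*x^4*y^2*M - 4*x^4*y^2 - 6*x^4*y*M^2 - 12*x^4*y*M - x^4*M^2 - 2*x^4*M - x^3*y^8 + 12*x^3*y^6*M + 26*x^3*y^6 + 12*x^3*y^5*M + 24*x^3*y^5 - 9*x^3*y^4*M - 19*x^3*y^4 - 12*x^3*y^3*M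 - 24*x^3*y^3 - 3*x^3*y^2*M - 6*x^3*y^2 - 6*x^2*y^9 - 3*x^2*y^8 + 8*x^2*y^7*M + 28*x^2*y^7 + 12*x^2*y^6*M + 30*x^2*y^6 - 2*x^2*y^5*M - 10*x^2*y^5 - 11*x^2*y^4*M - 25*x^2*y^4 - 6*x^2*y^3*M - 12*x^2*y^3 - x^2*y^2*M - 2*x^2*y^2 - 12*x*y^10 - 12*x*y^9 + 21*x*y^8 + 24*x*y^7 - 6*x*y^6 - 12*x*y^5 - 3*x*y^4 - 8*y^11 - 12*y^10 + 10*y^9 + 23*y^8 + 4*y^7 - 10*y^6 - 6*y^5 - y^4) * hM
    have hne : (y - E.toAffine.negY x y) ^ 3 * (x ^ 4 - x ^ 2) ^ 3 ≠ 0 :=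
      mul_ne_zero (pow_ne_zero _ hη) (pow_ne_zero _ hd)
    exact sub_eq_zero.mp ((mul_eq_zero.mp key).resolve_left hne)

theorem ord_11110 (E : WeierstrassCurve K) (h2 : (2 : K) = 0)
    (ha1 : E.a₁ = 1) (ha2 : E.a₂ = 1) (ha3 : E.a₃ = 1) (ha4 : E.a₄ = 1) (ha6 : E.a₆ = 0)
    {x y : K} (h : E.toAffine.Nonsingular x y) (hx0 : x ≠ 0) (hx1 : x ≠ 1)
    (hφ : E.toAffine.Nonsingular (x ^ 2) (y ^ 2))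
    (h4 : E.toAffine.Nonsingular (x ^ 4) (y ^ 4)) :
    Point.some (x ^ 4) (y ^ 4) h4 + Point.some (x ^ 2) (y ^ 2) hφ + (Point.some x y h + Point.some x y h) = 0 := by
  have hF := (equation_iff x y).mp h.1
  rw [ha1, ha2, ha3, ha4, ha6] at hF
  have hη : y - E.toAffine.negY x y ≠ 0 := by
    intro h0
    apply hx1
    simp only [negY, ha1, ha3] at h0
    linear_combination h0 - (y + 1) * h2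
  have hd : x ^ 4 - x ^ 2 ≠ 0 := by
    intro h0
    have h3 : x ^ 2 * (x - 1) ^ 2 = 0 := by linear_combination h0 - (x ^ 2 * (x - 1)) * h2
    rcases mul_eq_zero.mp h3 with h5 | h5
    · exact hx0 (pow_eq_zero_iff (two_ne_zero) |>.mp h5)
    · exact hx1 (sub_eq_zero.mp (pow_eq_zero_iff (two_ne_zero) |>.mp h5))
  obtain ⟨L, hL⟩ : ∃ L : K, L * (y - E.toAffine.negY x y)
      = 3 * x ^ 2 + 2 * E.a₂ * x + E.a₄ - E.a₁ * y := ⟨_, div_mul_cancel₀ _ hη⟩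
  obtain ⟨M, hM⟩ : ∃ M : K, M * (x ^ 4 - x ^ 2) = y ^ 4 - y ^ 2 := ⟨_, div_mul_cancel₀ _ hd⟩
  obtain ⟨hC, e2⟩ := add_self_some h hη hL
  obtain ⟨hS, eS⟩ := add_some_some h4 _ hd hM
  rw [e2, eS]
  simp only [negY, ha1, ha2, ha3, ha4] at hL hM
  refine Point.add_of_Y_eq ?_ ?_
  ·
    have key : (y - E.toAffine.negY x y) ^ 2 * (x ^ 4 - x ^ 2) ^ 2 * (E.toAffine.addX (x ^ 4) (x ^ 2) M - (E.toAffine.addX x x L)) = 0 := by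
      simp only [addX, addY, negAddY, negY, ha1, ha2, ha3, ha4]
      linear_combination (41*x^11 - 12*x^10*y + 199*x^10 + 4*x^9*y^2 - 67*x^9*y + 567*x^9 + 25*x^8*y^2 - 215*x^8*y + 1111*x^8 - 8*x^7*y^3 + 87*x^7*y^2 - 426*x^7*y + 1533*x^7 + 4*x^6*y^4 - 30*x^6*y^3 + 165*x^6*y^2 - 580*x^6*y + 1577*x^6 + 13*x^5*y^4 - 65*x^5*y^3 + 213*x^5*y^2 - 539*x^5*y + 1149*x^5 - 4*x^4*y^5 + 32*x^4*y^4 - 79*x^4*y^3 + 165*x^4*y^2 - 331*x^4*y + 561*x^4 + 4*x^3*y^6 - 9*x^3*y^5 + 24*x^3*y^4 - 58*x^3*y^3 + 87*x^3*y^2 - 120*x^3*y + 158*x^3 + 5*x^2*y^6 - 11*x^2*y^5 + 11*x^2*y^4 - 20*x^2*y^3 + 21*x^2*y^2 - 14*x^2*y + 16*x^2 + 6*x*y^6 - 7*x*y^5 - 3*x*y^4 + 3*x*y^3 + x*y^2 + 4*y^8 - 7*y^6 - y^5 + 3*y^4 + y^3) * hF + (20*x^14 - 8*x^13*y + 119*x^13 - 62*x^12*y + 399*x^12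 - 265*x^11*y + 933*x^11 - 731*x^10*y + 1610*x^10 - 1443*x^9*y + 2122*x^9 - 2100*x^8*y + 2135*x^8 - 2291*x^7*y + 1641*x^7 - 1857*x^6*y + 930*x^6 - 1083*x^5*y + 365*x^5 - 426*x^4*y + 86*x^4 - 94*x^3*y + 8*x^3 - 8*x^2*y) * h2 + (-3*x^10 - x^9*L - 3*x^9 - 2*x^8*y*L - x^8*y - x^8*L + 4*x^8 + 2*x^7*L + 6*x^7 + 4*x^6*y*L + 2*x^6*y + 2*x^6*L + x^6 - x^5*L - 3*x^5 - 2*x^4*y*L - x^4*y - x^4*L - 2*x^4) * hL + (x^6*M + x^6 + 4*x^5*y*M + 4*x^5*y + 2*x^5*M + 2*x^5 + 4*x^4*y^2*M + 4*x^4*y^2 + 4*x^4*y*M + 4*x^4*y - 4*x^3*y*M - 4*x^3*y - 2*x^3*M - 2*x^3 + x^2*y^4 - 4*x^2*y^2*M - 5*x^2*y^2 - 4*x^2*y*M - 4*x^2*y - x^2*M - x^2 + 4*x*y^5 + 2*x*y^4 - 4*x*y^3 - 2*x*y^2 + 4*y^6 + 4*y^5 - 3*y^4 - 4*y^3 - y^2) * hM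
    have hne : (y - E.toAffine.negY x y) ^ 2 * (x ^ 4 - x ^ 2) ^ 2 ≠ 0 :=
      mul_ne_zero (pow_ne_zero _ hη) (pow_ne_zero _ hd)
    exact sub_eq_zero.mp ((mul_eq_zero.mp key).resolve_left hne)
  ·
    have key : (y - E.toAffine.negY x y) ^ 3 * (x ^ 4 - x ^ 2) ^ 3 * (E.toAffine.addY (x ^ 4) (x ^ 2) (y ^ 4) M - (E.toAffine.negY (E.toAffine.addX x x L) (E.toAffine.addY x x y L))) = 0 := by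
      simp only [addX, addY, negAddY, negY, ha1, ha2, ha3, ha4]
      linear_combination (32*x^19 + 496*x^18 - 128*x^17*y + 3370*x^17 + 32*x^16*y^2 - 1072*x^16*y + 14463*x^16 + 336*x^15*y^2 - 5130*x^15*y + 44831*x^15 - 96*x^14*y^3 + 1790*x^14*y^2 - 16635*x^14*y + 106149*x^14 + 32*x^13*y^4 - 616*x^13*y^3 + 6123*x^13*y^2 - 40046*x^13*y + 198557*x^13 + 207*x^12*y^4 - 2292*x^12*y^3 + 15143*x^12*y^2 - 74701*x^12*y + 298752*x^12 - 70*x^11*y^5 + 836*x^11*y^4 - 5786*x^11*y^3 + 28211*x^11*y^2 - 109954*x^11*y + 364540*x^11 + 20*x^10*y^6 - 319*x^10*y^5 + 2193*x^10*y^4 - 10654*x^10*y^3 + 40574*x^10*y^2 - 129064*x^10*y + 360664*x^10 - 8*x^9*y^7 + 105*x^9*y^6 - 850*x^9*y^5 + 4067*x^9*y^4 - 14896*x^9*y^3 + 45374*x^9*y^2 - 120528*x^9*y + 287414*x^9 - 42*x^8*y^7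 + 322*x^8*y^6 - 1588*x^8*y^5 + 5478*x^8*y^4 - 15727*x^8*y^3 + 39412*x^8*y^2 - 88570*x^8*y + 181793*x^8 + 12*x^7*y^8 - 144*x^7*y^7 + 597*x^7*y^6 - 1962*x^7*y^5 + 5428*x^7*y^4 - 12578*x^7*y^3 + 26178*x^7*y^2 - 50000*x^7*y + 88757*x^7 - 8*x^6*y^9 + 43*x^6*y^8 - 237*x^6*y^7 + 746*x^6*y^6 - 1765*x^6*y^5 + 3852*x^6*y^4 - 7365*x^6*y^3 + 12796*x^6*y^2 - 20809*x^6*y + 31923*x^6 - 22*x^5*y^9 + 81*x^5*y^8 - 264*x^5*y^7 + 621*x^5*y^6 - 1088*x^5*y^5 + 1848*x^5*y^4 - 2972*x^5*y^3 + 4303*x^5*y^2 - 5894*x^5*y + 7763*x^5 + 4*x^4*y^10 - 59*x^4*y^9 + 94*x^4*y^8 - 118*x^4*y^7 + 306*x^4*y^6 - 469*x^4*y^5 + 543*x^4*y^4 - 701*x^4*y^3 + 845*x^4*y^2 - 957*x^4*y + 1088*x^4 - 8*x^3*y^11 + 9*x^3*y^10 - 20*x^3*y^9 + 76*x^3*y^8 - 56*x^3*y^7 + 36*x^3*y^6 - 100*x^3*y^5 +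 76*x^3*y^4 - 48*x^3*y^3 + 67*x^3*y^2 - 64*x^3*y + 64*x^3 - 10*x^2*y^11 + 11*x^2*y^10 + 14*x^2*y^9 + 25*x^2*y^8 - 35*x^2*y^7 - 35*x^2*y^6 + 12*x^2*y^5 + 15*x^2*y^4 + 3*x^2*y^3 - 4*x*y^12 - 12*x*y^11 + 19*x*y^10 + 26*x*y^9 - 21*x*y^8 - 20*x*y^7 + 5*x*y^6 + 6*x*y^5 + x*y^4 - 8*y^13 - 4*y^12 + 22*y^11 + 13*y^10 - 19*y^9 - 14*y^8 + 4*y^7 + 5*y^6 + y^5) * hF + (16*x^22 + 264*x^21 - 80*x^20*y + 1949*x^20 - 864*x^19*y + 9165*x^19 - 5095*x^18*y + 31320*x^18 - 20329*x^17*y + 82695*x^17 - 60533*x^16*y + 174778*x^16 - 141150*x^15*y + 301790*x^15 - 264744*x^14*y + 430961*x^14 - 405630*x^13*y + 511947*x^13 - 511442*x^12*y + 506262*x^12 - 531581*x^11*y + 414920*x^11 - 453516*x^10*y + 278989*x^10 - 314303*x^9*y + 151246*x^9 - 173655*x^8*y + 64227*x^8 - 74183*x^7*y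 + 20389*x^7 - 23303*x^6*y + 4458*x^6 - 4936*x^5*y + 576*x^5 - 608*x^4*y + 32*x^4 - 32*x^3*y) * h2 + (-9*x^16 - 3*x^15*L - 12*x^15 - 6*x^14*y*L + 12*x^14*y - x^14*L^2 - 6*x^14*L + 19*x^14 + 12*x^13*y^2 - 4*x^13*y*L^2 - 7*x^13*y*L + 17*x^13*y - 2*x^13*L^2 + 4*x^13*L + 34*x^13 - 4*x^12*y^2*L^2 - 2*x^12*y^2*L + 5*x^12*y^2 - 4*x^12*y*L^2 + 13*x^12*y*L - 31*x^12*y + 2*x^12*L^2 + 16*x^12*L - 4*x^12 - 36*x^11*y^2 + 12*x^11*y*L^2 + 21*x^11*y*L - 51*x^11*y + 6*x^11*L^2 + 6*x^11*L - 30*x^11 + 12*x^10*y^2*L^2 + 6*x^10*y^2*L - 15*x^10*y^2 + 12*x^10*y*L^2 - 3*x^10*y*L + 21*x^10*y - 12*x^10*L - 12*x^10 + 36*x^9*y^2 - 12*x^9*y*L^2 - 21*x^9*y*L + 51*x^9*y - 6*x^9*L^2 - 12*x^9*L + 6*x^9 - 12*x^8*y^2*L^2 - 6*x^8*y^2*L + 15*x^8*y^2 - 12*x^8*y*L^2 - 9*x^8*y*L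 + 3*x^8*y - 2*x^8*L^2 + 5*x^8 - 12*x^7*y^2 + 4*x^7*y*L^2 + 7*x^7*y*L - 17*x^7*y + 2*x^7*L^2 + 5*x^7*L + 2*x^7 + 4*x^6*y^2*L^2 + 2*x^6*y^2*L - 5*x^6*y^2 + 4*x^6*y*L^2 + 5*x^6*y*L - 5*x^6*y + x^6*L^2 + 2*x^6*L + x^6) * hL + (2*x^15 + 12*x^14*y + 6*x^14 + 24*x^13*y^2 + 24*x^13*y + 3*x^13 + 16*x^12*y^3 + 24*x^12*y^2 - 6*x^12*y - 7*x^12 - 36*x^11*y^2 - 36*x^11*y - x^11*M^2 - 2*x^11*M - 9*x^11 - 24*x^10*y^3 - 36*x^10*y^2 - 6*x^10*y*M^2 - 12*x^10*y*M - 18*x^10*y - 3*x^10*M^2 - 6*x^10*M - 3*x^10 - 12*x^9*y^2*M^2 - 24*x^9*y^2*M - 12*x^9*y*M^2 - 24*x^9*y*M - x^9*M^2 - 2*x^9*M + x^9 - 8*x^8*y^3*M^2 - 16*x^8*y^3*M - 12*x^8*y^2*M^2 - 24*x^8*y^2*M + 6*x^8*y*M^2 + 12*x^8*y*M + 6*x^8*y + 5*x^8*M^2 + 10*x^8*M + 3*x^8 - x^7*y^4*M - 2*x^7*y^4 + 24*x^7*y^2*M^2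 + 49*x^7*y^2*M + 14*x^7*y^2 + 24*x^7*y*M^2 + 48*x^7*y*M + 12*x^7*y + 5*x^7*M^2 + 10*x^7*M + 3*x^7 - 6*x^6*y^5*M - 12*x^6*y^5 - 3*x^6*y^4*M - 6*x^6*y^4 + 16*x^6*y^3*M^2 + 38*x^6*y^3*M + 20*x^6*y^3 + 24*x^6*y^2*M^2 + 51*x^6*y^2*M + 18*x^6*y^2 + 6*x^6*y*M^2 + 12*x^6*y*M + 6*x^6*y - x^6*M^2 - 2*x^6*M + x^6 - 12*x^5*y^6*M - 24*x^5*y^6 - 12*x^5*y^5*M - 24*x^5*y^5 + 10*x^5*y^4*M + 20*x^5*y^4 + 12*x^5*y^3*M + 24*x^5*y^3 - 12*x^5*y^2*M^2 - 22*x^5*y^2*M + 4*x^5*y^2 - 12*x^5*y*M^2 - 24*x^5*y*M - 3*x^5*M^2 - 6*x^5*M - 8*x^4*y^7*M - 16*x^4*y^7 - 12*x^4*y^6*M - 24*x^4*y^6 + 8*x^4*y^5*M + 16*x^4*y^5 + 14*x^4*y^4*M + 28*x^4*y^4 - 8*x^4*y^3*M^2 - 16*x^4*y^3*M - 12*x^4*y^2*M^2 - 26*x^4*y^2*M - 4*x^4*y^2 - 6*x^4*y*M^2 - 12*x^4*y*M - x^4*M^2 - 2*x^4*M - x^3*y^8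 + 12*x^3*y^6*M + 26*x^3*y^6 + 12*x^3*y^5*M + 24*x^3*y^5 - 9*x^3*y^4*M - 19*x^3*y^4 - 12*x^3*y^3*M - 24*x^3*y^3 - 3*x^3*y^2*M - 6*x^3*y^2 - 6*x^2*y^9 - 3*x^2*y^8 + 8*x^2*y^7*M + 28*x^2*y^7 + 12*x^2*y^6*M + 30*x^2*y^6 - 2*x^2*y^5*M - 10*x^2*y^5 - 11*x^2*y^4*M - 25*x^2*y^4 - 6*x^2*y^3*M - 12*x^2*y^3 - x^2*y^2*M - 2*x^2*y^2 - 12*x*y^10 - 12*x*y^9 + 21*x*y^8 + 24*x*y^7 - 6*x*y^6 - 12*x*y^5 - 3*x*y^4 - 8*y^11 - 12*y^10 + 10*y^9 + 23*y^8 + 4*y^7 - 10*y^6 - 6*y^5 - y^4) * hM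
    have hne : (y - E.toAffine.negY x y) ^ 3 * (x ^ 4 - x ^ 2) ^ 3 ≠ 0 :=
      mul_ne_zero (pow_ne_zero _ hη) (pow_ne_zero _ hd)
    exact sub_eq_zero.mp ((mul_eq_zero.mp key).resolve_left hne)

end Fermat.Agent.HW.Char2
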