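import Fermat.Agent.HW.Char2.Basic

/-!
# HW brick at `p = 2`: the supersingular curves `y² + y = x³ + a₂x² + a₄x + a₆` (GENERATED, helper51)
-/

set_option autoImplicit false
set_option maxHeartbeats 1600000
set_option linter.unusedSimpArgs false

open WeierstrassCurve WeierstrassCurve.Affine

namespace Fermat.Agent.HW.Char2

variable {K : Type*} [Field K] [DecidableEq K]

theorem super_00100 (E : WeierstrassCurve K) (h2 : (2 : K) = 0)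
    (ha1 : E.a₁ = 0) (ha2 : E.a₂ = 0) (ha3 : E.a₃ = 1) (ha4 : E.a₄ = 0) (ha6 : E.a₆ = 0)
    {x y : K} (h : E.toAffine.Nonsingular x y)
    (h4 : E.toAffine.Nonsingular (x ^ 4) (y ^ 4)) :
    Point.some (x ^ 4) (y ^ 4) h4 + (Point.some x y h + Point.some x y h) = 0 := by
  have hF := (equation_iff x y).mp h.1
  rw [ha1, ha2, ha3, ha4, ha6] at hF
  have hη1 : y - E.toAffine.negY x y = 1 := by
    simp only [negY, ha1, ha3]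
    linear_combination (y) * h2
  have hη : y - E.toAffine.negY x y ≠ 0 := by rw [hη1]; exact one_ne_zero
  have hL : (3 * x ^ 2 + 2 * E.a₂ * x + E.a₄ - E.a₁ * y) * (y - E.toAffine.negY x y)
      = 3 * x ^ 2 + 2 * E.a₂ * x + E.a₄ - E.a₁ * y := by rw [hη1, mul_one]
  obtain ⟨hC, e2⟩ := add_self_some h hη hL
  rw [e2]
  refine Point.add_of_Y_eq ?_ ?_
  · simp only [addX, addY, negAddY, negY, ha1, ha2, ha3, ha4]
    linear_combination (0) * hF + (-4*x^4 + x) * h2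
  · simp only [addX, addY, negAddY, negY, ha1, ha2, ha3, ha4]
    linear_combination (x^3 + y^2 - y + 1) * hF + (-13*x^6 - x^3*y + 5*x^3 - y) * h2

theorem super_00101 (E : WeierstrassCurve K) (h2 : (2 : K) = 0)
    (ha1 : E.a₁ = 0) (ha2 : E.a₂ = 0) (ha3 : E.a₃ = 1) (ha4 : E.a₄ = 0) (ha6 : E.a₆ = 1)
    {x y : K} (h : E.toAffine.Nonsingular x y)
    (h4 : E.toAffine.Nonsingular (x ^ 4) (y ^ 4)) :
    Point.some (x ^ 4) (y ^ 4) h4 + (Point.some x y h + Point.some x y h) = 0 := by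
  have hF := (equation_iff x y).mp h.1
  rw [ha1, ha2, ha3, ha4, ha6] at hF
  have hη1 : y - E.toAffine.negY x y = 1 := by
    simp only [negY, ha1, ha3]
    linear_combination (y) * h2
  have hη : y - E.toAffine.negY x y ≠ 0 := by rw [hη1]; exact one_ne_zero
  have hL : (3 * x ^ 2 + 2 * E.a₂ * x + E.a₄ - E.a₁ * y) * (y - E.toAffine.negY x y)
      = 3 * x ^ 2 + 2 * E.a₂ * x + E.a₄ - E.a₁ * y := by rw [hη1, mul_one]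
  obtain ⟨hC, e2⟩ := add_self_some h hη hL
  rw [e2]
  refine Point.add_of_Y_eq ?_ ?_
  · simp only [addX, addY, negAddY, negY, ha1, ha2, ha3, ha4]
    linear_combination (0) * hF + (-4*x^4 + x) * h2
  · simp only [addX, addY, negAddY, negY, ha1, ha2, ha3, ha4]
    linear_combination (x^3 + y^2 - y + 2) * hF + (-13*x^6 - x^3*y + 6*x^3 - 2*y + 1) * h2

theorem super_00110 (E : WeierstrassCurve K) (h2 : (2 : K) = 0)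
    (ha1 : E.a₁ = 0) (ha2 : E.a₂ = 0) (ha3 : E.a₃ = 1) (ha4 : E.a₄ = 1) (ha6 : E.a₆ = 0)
    {x y : K} (h : E.toAffine.Nonsingular x y)
    (h4 : E.toAffine.Nonsingular (x ^ 4) (y ^ 4)) :
    ∃ (X Y : K) (hC : E.toAffine.Nonsingular X Y),
      Point.some x y h + Point.some x y h = Point.some X Y hC ∧
      ∀ hQ : E.toAffine.Nonsingular (X ^ 2) (Y ^ 2),
        Point.some (x ^ 4) (y ^ 4) h4 + Point.some X Y hC = -Point.some _ _ hQ := by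
  have hF := (equation_iff x y).mp h.1
  rw [ha1, ha2, ha3, ha4, ha6] at hF
  have hη1 : y - E.toAffine.negY x y = 1 := by
    simp only [negY, ha1, ha3]
    linear_combination (y) * h2
  have hη : y - E.toAffine.negY x y ≠ 0 := by rw [hη1]; exact one_ne_zero
  have hL : (3 * x ^ 2 + 2 * E.a₂ * x + E.a₄ - E.a₁ * y) * (y - E.toAffine.negY x y)
      = 3 * x ^ 2 + 2 * E.a₂ * x + E.a₄ - E.a₁ * y := by rw [hη1, mul_one]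
  obtain ⟨hC, e2⟩ := add_self_some h hη hL
  refine ⟨_, _, hC, e2, fun hQ => ?_⟩
  have hd1 : x ^ 4 - E.toAffine.addX x x (3 * x ^ 2 + 2 * E.a₂ * x + E.a₄ - E.a₁ * y) = 1 := by
    simp only [addX, addY, negAddY, negY, ha1, ha2, ha3, ha4]
    linear_combination (-4*x^4 - 3*x^2 + x - 1) * h2
  have hd : x ^ 4 - E.toAffine.addX x x (3 * x ^ 2 + 2 * E.a₂ * x + E.a₄ - E.a₁ * y) ≠ 0 := by
    rw [hd1]; exact one_ne_zero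
  have hM : (y ^ 4 - E.toAffine.addY x x y (3 * x ^ 2 + 2 * E.a₂ * x + E.a₄ - E.a₁ * y))
      * (x ^ 4 - E.toAffine.addX x x (3 * x ^ 2 + 2 * E.a₂ * x + E.a₄ - E.a₁ * y))
      = y ^ 4 - E.toAffine.addY x x y (3 * x ^ 2 + 2 * E.a₂ * x + E.a₄ - E.a₁ * y) := by
    rw [hd1, mul_one]
  obtain ⟨hS, eS⟩ := add_some_some h4 hC hd hM
  rw [eS]
  rw [Point.neg_some]
  refine some_eq ?_ ?_
  · simp only [addX, addY, negAddY, negY, ha1, ha2, ha3, ha4]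
    linear_combination (55*x^9 + 111*x^7 + 55*x^6*y^2 - 57*x^6*y + 42*x^6 + 75*x^5 + 56*x^4*y^2 - 60*x^4*y + 42*x^4 + x^3*y^4 - 2*x^3*y^3 - 15*x^3*y^2 + 16*x^3*y + 6*x^3 + 19*x^2*y^2 - 21*x^2*y + 18*x^2 + x*y^4 - 2*x*y^3 - 3*x*y^2 + 4*x*y - x + y^6 - y^5 + y^4 + y^3 + 3*y^2 - 3*y + 4) * hF + (392*x^12 + 812*x^10 - 56*x^9*y - 222*x^9 + 660*x^8 - 114*x^7*y - 282*x^7 + 14*x^6*y + 324*x^6 - 78*x^5*y - 114*x^5 + 16*x^4*y + 92*x^4 - 24*x^3*y - 22*x^3 + 2*x^2*y + 11*x^2 - 4*x*y - x + 1) * h2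
  · simp only [addX, addY, negAddY, negY, ha1, ha2, ha3, ha4]
    linear_combination (-2269*x^15 - 6890*x^13 - 2269*x^12*y^2 + 2435*x^12*y - 1203*x^12 - 8542*x^11 - 4621*x^10*y^2 + 5123*x^10*y - 2400*x^10 - 82*x^9*y^4 + 166*x^9*y^3 + 1232*x^9*y^2 - 1360*x^9*y - 4575*x^9 - 3921*x^8*y^2 + 4485*x^8*y - 2331*x^8 - 165*x^7*y^4 + 336*x^7*y^3 + 1491*x^7*y^2 - 1758*x^7*y - 837*x^7 - 82*x^6*y^6 + 84*x^6*y^5 - 60*x^6*y^4 - 128*x^6*y^3 - 2014*x^6*y^2 + 2336*x^6*y - 1609*x^6 - 111*x^5*y^4 + 228*x^5*y^3 + 663*x^5*y^2 - 840*x^5*y + 172*x^5 - 83*x^4*y^6 + 87*x^4*y^5 - 57*x^4*y^4 - 139*x^4*y^3 - 581*x^4*y^2 + 693*x^4*y - 620*x^4 - x^3*y^8 + 2*x^3*y^7 + 24*x^3*y^6 - 26*x^3*y^5 - 6*x^3*y^4 + 94*x^3*y^3 + 145*x^3*y^2 - 188*x^3*y + 121*x^3 - 28*x^2*y^6 + 30*x^2*y^5 - 24*x^2*y^4 - 38*x^2*y^3 - 87*x^2*y^2 + 105*x^2*y - 123*x^2 - x*y^8 + 2*x*y^7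 + 6*x*y^6 - 8*x*y^5 + 4*x*y^4 + 18*x*y^3 + 9*x*y^2 - 14*x*y + 16*x - y^10 + y^9 - y^8 - 2*y^7 - 4*y^6 + 4*y^5 - 7*y^4 - 5*y^3 - 7*y^2 + 6*y - 11) * hF + (-10976*x^18 - 34104*x^16 + 2352*x^15*y + 9240*x^15 - 47082*x^14 + 7224*x^13*y + 21162*x^13 - 1172*x^12*y - 41186*x^12 + 9075*x^11*y + 20598*x^11 - 2546*x^10*y - 24792*x^10 + 6427*x^9*y + 11638*x^9 - 1956*x^8*y - 10066*x^8 + 2905*x^7*y + 4074*x^7 - 695*x^6*y - 2693*x^6 + 799*x^5*y + 854*x^5 - 123*x^4*y - 438*x^4 + 121*x^3*y + 95*x^3 - x^2*y - 37*x^2 + 9*x*y + 3*x + 2*y - 1) * h2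

theorem super_00111 (E : WeierstrassCurve K) (h2 : (2 : K) = 0)
    (ha1 : E.a₁ = 0) (ha2 : E.a₂ = 0) (ha3 : E.a₃ = 1) (ha4 : E.a₄ = 1) (ha6 : E.a₆ = 1)
    {x y : K} (h : E.toAffine.Nonsingular x y)
    (h4 : E.toAffine.Nonsingular (x ^ 4) (y ^ 4)) :
    ∃ (X Y : K) (hC : E.toAffine.Nonsingular X Y),
      Point.some x y h + Point.some x y h = Point.some X Y hC ∧
      ∀ hQ : E.toAffine.Nonsingular (X ^ 2) (Y ^ 2),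
        Point.some (x ^ 4) (y ^ 4) h4 + Point.some X Y hC = Point.some _ _ hQ := by
  have hF := (equation_iff x y).mp h.1
  rw [ha1, ha2, ha3, ha4, ha6] at hF
  have hη1 : y - E.toAffine.negY x y = 1 := by
    simp only [negY, ha1, ha3]
    linear_combination (y) * h2
  have hη : y - E.toAffine.negY x y ≠ 0 := by rw [hη1]; exact one_ne_zero
  have hL : (3 * x ^ 2 + 2 * E.a₂ * x + E.a₄ - E.a₁ * y) * (y - E.toAffine.negY x y)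
      = 3 * x ^ 2 + 2 * E.a₂ * x + E.a₄ - E.a₁ * y := by rw [hη1, mul_one]
  obtain ⟨hC, e2⟩ := add_self_some h hη hL
  refine ⟨_, _, hC, e2, fun hQ => ?_⟩
  have hd1 : x ^ 4 - E.toAffine.addX x x (3 * x ^ 2 + 2 * E.a₂ * x + E.a₄ - E.a₁ * y) = 1 := by
    simp only [addX, addY, negAddY, negY, ha1, ha2, ha3, ha4]
    linear_combination (-4*x^4 - 3*x^2 + x - 1) * h2
  have hd : x ^ 4 - E.toAffine.addX x x (3 * x ^ 2 + 2 * E.a₂ * x + E.a₄ - E.a₁ * y) ≠ 0 := by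
    rw [hd1]; exact one_ne_zero
  have hM : (y ^ 4 - E.toAffine.addY x x y (3 * x ^ 2 + 2 * E.a₂ * x + E.a₄ - E.a₁ * y))
      * (x ^ 4 - E.toAffine.addX x x (3 * x ^ 2 + 2 * E.a₂ * x + E.a₄ - E.a₁ * y))
      = y ^ 4 - E.toAffine.addY x x y (3 * x ^ 2 + 2 * E.a₂ * x + E.a₄ - E.a₁ * y) := by
    rw [hd1, mul_one]
  obtain ⟨hS, eS⟩ := add_some_some h4 hC hd hM
  rw [eS]
  refine some_eq ?_ ?_
  · simp only [addX, addY, negAddY, negY, ha1, ha2, ha3, ha4]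
    linear_combination (55*x^9 + 111*x^7 + 55*x^6*y^2 - 57*x^6*y + 99*x^6 + 75*x^5 + 56*x^4*y^2 - 60*x^4*y + 102*x^4 + x^3*y^4 - 2*x^3*y^3 - 13*x^3*y^2 + 10*x^3*y + 3*x^3 + 19*x^2*y^2 - 21*x^2*y + 39*x^2 + x*y^4 - 2*x*y^3 - x*y^2 - 2*x*y + 8*x + y^6 - y^5 + 2*y^4 - y^3 + 7*y^2 - 8*y + 16) * hF + (392*x^12 + 812*x^10 - 56*x^9*y - 166*x^9 + 660*x^8 - 114*x^7*y - 168*x^7 - 46*x^6*y + 372*x^6 - 78*x^5*y - 36*x^5 - 50*x^4*y + 146*x^4 - 20*x^3*y - 4*x^3 - 22*x^2*y + 35*x^2 - 12*x*y + 9*x - 10*y + 9) * h2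
  · simp only [addX, addY, negAddY, negY, ha1, ha2, ha3, ha4]
    linear_combination (-2269*x^15 - 6890*x^13 - 2269*x^12*y^2 + 2435*x^12*y - 3638*x^12 - 8542*x^11 - 4621*x^10*y^2 + 5123*x^10*y - 7523*x^10 - 82*x^9*y^4 + 166*x^9*y^3 + 1066*x^9*y^2 - 854*x^9*y - 4321*x^9 - 3921*x^8*y^2 + 4485*x^8*y - 6816*x^8 - 165*x^7*y^4 + 336*x^7*y^3 + 1155*x^7*y^2 - 726*x^7*y - 1344*x^7 - 82*x^6*y^6 + 84*x^6*y^5 - 144*x^6*y^4 + 46*x^6*y^3 - 2320*x^6*y^2 + 2660*x^6*y - 4489*x^6 - 111*x^5*y^4 + 228*x^5*y^3 + 435*x^5*y^2 - 132*x^5*y - 551*x^5 - 83*x^4*y^6 + 87*x^4*y^5 - 144*x^4*y^4 + 47*x^4*y^3 - 905*x^4*y^2 + 1044*x^4*y - 1906*x^4 - x^3*y^8 + 2*x^3*y^7 + 22*x^3*y^6 - 20*x^3*y^5 + 6*x^3*y^4 + 66*x^3*y^3 + 137*x^3*y^2 - 28*x^3*y - 67*x^3 - 28*x^2*y^6 + 30*x^2*y^5 - 54*x^2*y^4 + 28*x^2*y^3 - 213*x^2*y^2 + 267*x^2*y - 520*x^2 - x*y^8 + 2*x*y^7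 + 4*x*y^6 - 2*x*y^5 - 2*x*y^4 + 26*x*y^3 - 13*x*y^2 + 54*x*y - 104*x - y^10 + y^9 - 2*y^8 - 8*y^6 + 8*y^5 - 19*y^4 + 15*y^3 - 46*y^2 + 60*y - 113) * hF + (-10976*x^18 - 34104*x^16 + 2352*x^15*y + 6888*x^15 - 47082*x^14 + 7224*x^13*y + 13938*x^13 + 1516*x^12*y - 43607*x^12 + 9075*x^11*y + 11523*x^11 + 3346*x^10*y - 30138*x^10 + 6035*x^9*y + 6281*x^9 + 3399*x^8*y - 15304*x^8 + 3133*x^7*y + 1967*x^7 + 2455*x^6*y - 6068*x^6 + 1351*x^5*y + 61*x^5 + 1102*x^4*y - 1788*x^4 + 327*x^3*y - 98*x^3 + 347*x^2*y - 402*x^2 + 129*x*y - 88*x + 79*y - 62) * h2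

theorem super_01100 (E : WeierstrassCurve K) (h2 : (2 : K) = 0)
    (ha1 : E.a₁ = 0) (ha2 : E.a₂ = 1) (ha3 : E.a₃ = 1) (ha4 : E.a₄ = 0) (ha6 : E.a₆ = 0)
    {x y : K} (h : E.toAffine.Nonsingular x y)
    (h4 : E.toAffine.Nonsingular (x ^ 4) (y ^ 4)) :
    ∃ (X Y : K) (hC : E.toAffine.Nonsingular X Y),
      Point.some x y h + Point.some x y h = Point.some X Y hC ∧
      ∀ hQ : E.toAffine.Nonsingular (X ^ 2) (Y ^ 2),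
        Point.some (x ^ 4) (y ^ 4) h4 + Point.some X Y hC = -Point.some _ _ hQ := by
  have hF := (equation_iff x y).mp h.1
  rw [ha1, ha2, ha3, ha4, ha6] at hF
  have hη1 : y - E.toAffine.negY x y = 1 := by
    simp only [negY, ha1, ha3]
    linear_combination (y) * h2
  have hη : y - E.toAffine.negY x y ≠ 0 := by rw [hη1]; exact one_ne_zero
  have hL : (3 * x ^ 2 + 2 * E.a₂ * x + E.a₄ - E.a₁ * y) * (y - E.toAffine.negY x y)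
      = 3 * x ^ 2 + 2 * E.a₂ * x + E.a₄ - E.a₁ * y := by rw [hη1, mul_one]
  obtain ⟨hC, e2⟩ := add_self_some h hη hL
  refine ⟨_, _, hC, e2, fun hQ => ?_⟩
  have hd1 : x ^ 4 - E.toAffine.addX x x (3 * x ^ 2 + 2 * E.a₂ * x + E.a₄ - E.a₁ * y) = 1 := by
    simp only [addX, addY, negAddY, negY, ha1, ha2, ha3, ha4]
    linear_combination (-4*x^4 - 6*x^3 - 2*x^2 + x) * h2
  have hd : x ^ 4 - E.toAffine.addX x x (3 * x ^ 2 + 2 * E.a₂ * x + E.a₄ - E.a₁ * y) ≠ 0 := by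
    rw [hd1]; exact one_ne_zero
  have hM : (y ^ 4 - E.toAffine.addY x x y (3 * x ^ 2 + 2 * E.a₂ * x + E.a₄ - E.a₁ * y))
      * (x ^ 4 - E.toAffine.addX x x (3 * x ^ 2 + 2 * E.a₂ * x + E.a₄ - E.a₁ * y))
      = y ^ 4 - E.toAffine.addY x x y (3 * x ^ 2 + 2 * E.a₂ * x + E.a₄ - E.a₁ * y) := by
    rw [hd1, mul_one]
  obtain ⟨hS, eS⟩ := add_some_some h4 hC hd hM
  rw [eS]
  rw [Point.neg_some]
  refine some_eq ?_ ?_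
  · simp only [addX, addY, negAddY, negY, ha1, ha2, ha3, ha4]
    linear_combination (55*x^9 + 165*x^8 + 183*x^7 + 55*x^6*y^2 - 57*x^6*y + 131*x^6 + 110*x^5*y^2 - 114*x^5*y + 100*x^5 + 73*x^4*y^2 - 75*x^4*y + 56*x^4 + x^3*y^4 - 2*x^3*y^3 + x^3*y^2 - 3*x^3 + x^2*y^4 - 2*x^2*y^3 - 15*x^2*y^2 + 16*x^2*y - 15*x^2 - 4*x*y^2 + 4*x*y - 4*x + y^6 - y^5 + y^4 + y^3 + y^2 - y + 2) * hF + (392*x^12 + 1568*x^11 + 2604*x^10 - 56*x^9*y + 2074*x^9 - 168*x^8*y + 426*x^8 - 186*x^7*y - 606*x^7 - 76*x^6*y - 486*x^6 + 12*x^5*y - 48*x^5 + 18*x^4*y + 89*x^4 + 2*x^3*y + 30*x^3 - 2*x^2*y - 6*x^2 - 3*x) * h2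
  · simp only [addX, addY, negAddY, negY, ha1, ha2, ha3, ha4]
    linear_combination (-2269*x^15 - 11345*x^14 - 24175*x^13 - 2269*x^12*y^2 + 2435*x^12*y - 29668*x^12 - 9076*x^11*y^2 + 9740*x^11*y - 24815*x^11 - 15099*x^10*y^2 + 16149*x^10*y - 16411*x^10 - 82*x^9*y^4 + 166*x^9*y^3 - 12134*x^9*y^2 + 12826*x^9*y - 7934*x^9 - 246*x^8*y^4 + 498*x^8*y^3 - 2941*x^8*y^2 + 2873*x^8*y - 366*x^8 - 273*x^7*y^4 + 552*x^7*y^3 + 2679*x^7*y^2 - 3054*x^7*y + 3086*x^7 - 82*x^6*y^6 + 84*x^6*y^5 - 193*x^6*y^4 + 140*x^6*y^3 + 2213*x^6*y^2 - 2386*x^6*y + 1961*x^6 - 164*x^5*y^6 + 168*x^5*y^5 - 144*x^5*y^4 - 208*x^5*y^3 + 294*x^5*y^2 - 270*x^5*y + 38*x^5 - 109*x^4*y^6 + 111*x^4*y^5 - 81*x^4*y^4 - 167*x^4*y^3 - 262*x^4*y^2 + 298*x^4*y - 390*x^4 - x^3*y^8 + 2*x^3*y^7 - 2*x^3*y^5 + 7*x^3*y^4 - 6*x^3*y^3 - 82*x^3*y^2 + 86*x^3*y - 81*x^3 - x^2*y^8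 + 2*x^2*y^7 + 24*x^2*y^6 - 26*x^2*y^5 + 25*x^2*y^4 + 30*x^2*y^3 + 12*x^2*y^2 - 14*x^2*y + 39*x^2 + 6*x*y^6 - 6*x*y^5 + 6*x*y^4 + 6*x*y^3 + 4*x*y^2 - 4*x*y + 10*x - y^10 + y^9 - y^8 - 2*y^7 - y^6 + y^5 - 4*y^4 - 2*y^3 - 2*y^2 + y - 3) * hF + (-10976*x^18 - 65856*x^17 - 175224*x^16 + 2352*x^15*y - 262024*x^15 + 11760*x^14*y - 222978*x^14 + 25032*x^13*y - 76746*x^13 + 28228*x^12*y + 43920*x^12 + 15883*x^11*y + 61136*x^11 + 825*x^10*y + 20854*x^10 - 4504*x^9*y - 6278*x^9 - 2198*x^8*y - 6781*x^8 + 199*x^7*y - 876*x^7 + 452*x^6*y + 779*x^6 + 98*x^5*y + 224*x^5 - 8*x^4*y - 48*x^4 - 7*x^3*y - 17*x^3 - 5*x^2*y + 3*x^2 - 2*x*y + y) * h2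

theorem super_01101 (E : WeierstrassCurve K) (h2 : (2 : K) = 0)
    (ha1 : E.a₁ = 0) (ha2 : E.a₂ = 1) (ha3 : E.a₃ = 1) (ha4 : E.a₄ = 0) (ha6 : E.a₆ = 1)
    {x y : K} (h : E.toAffine.Nonsingular x y)
    (h4 : E.toAffine.Nonsingular (x ^ 4) (y ^ 4)) :
    ∃ (X Y : K) (hC : E.toAffine.Nonsingular X Y),
      Point.some x y h + Point.some x y h = Point.some X Y hC ∧
      ∀ hQ : E.toAffine.Nonsingular (X ^ 2) (Y ^ 2),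
        Point.some (x ^ 4) (y ^ 4) h4 + Point.some X Y hC = Point.some _ _ hQ := by
  have hF := (equation_iff x y).mp h.1
  rw [ha1, ha2, ha3, ha4, ha6] at hF
  have hη1 : y - E.toAffine.negY x y = 1 := by
    simp only [negY, ha1, ha3]
    linear_combination (y) * h2
  have hη : y - E.toAffine.negY x y ≠ 0 := by rw [hη1]; exact one_ne_zero
  have hL : (3 * x ^ 2 + 2 * E.a₂ * x + E.a₄ - E.a₁ * y) * (y - E.toAffine.negY x y)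
      = 3 * x ^ 2 + 2 * E.a₂ * x + E.a₄ - E.a₁ * y := by rw [hη1, mul_one]
  obtain ⟨hC, e2⟩ := add_self_some h hη hL
  refine ⟨_, _, hC, e2, fun hQ => ?_⟩
  have hd1 : x ^ 4 - E.toAffine.addX x x (3 * x ^ 2 + 2 * E.a₂ * x + E.a₄ - E.a₁ * y) = 1 := by
    simp only [addX, addY, negAddY, negY, ha1, ha2, ha3, ha4]
    linear_combination (-4*x^4 - 6*x^3 - 2*x^2 + x) * h2
  have hd : x ^ 4 - E.toAffine.addX x x (3 * x ^ 2 + 2 * E.a₂ * x + E.a₄ - E.a₁ * y) ≠ 0 := by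
    rw [hd1]; exact one_ne_zero
  have hM : (y ^ 4 - E.toAffine.addY x x y (3 * x ^ 2 + 2 * E.a₂ * x + E.a₄ - E.a₁ * y))
      * (x ^ 4 - E.toAffine.addX x x (3 * x ^ 2 + 2 * E.a₂ * x + E.a₄ - E.a₁ * y))
      = y ^ 4 - E.toAffine.addY x x y (3 * x ^ 2 + 2 * E.a₂ * x + E.a₄ - E.a₁ * y) := by
    rw [hd1, mul_one]
  obtain ⟨hS, eS⟩ := add_some_some h4 hC hd hM
  rw [eS]
  refine some_eq ?_ ?_
  · simp only [addX, addY, negAddY, negY, ha1, ha2, ha3, ha4]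
    linear_combination (55*x^9 + 165*x^8 + 183*x^7 + 55*x^6*y^2 - 57*x^6*y + 188*x^6 + 110*x^5*y^2 - 114*x^5*y + 214*x^5 + 73*x^4*y^2 - 75*x^4*y + 131*x^4 + x^3*y^4 - 2*x^3*y^3 + 3*x^3*y^2 - 6*x^3*y + 10*x^3 + x^2*y^4 - 2*x^2*y^3 - 13*x^2*y^2 + 10*x^2*y - 18*x^2 - 4*x*y^2 + 4*x*y - 8*x + y^6 - y^5 + 2*y^4 - y^3 + 5*y^2 - 6*y + 12) * hF + (392*x^12 + 1568*x^11 + 2604*x^10 - 56*x^9*y + 2130*x^9 - 168*x^8*y + 594*x^8 - 186*x^7*y - 420*x^7 - 136*x^6*y - 348*x^6 - 108*x^5*y + 64*x^5 - 60*x^4*y + 151*x^4 - 10*x^3*y + 38*x^3 + 2*x^2*y - 10*x^2 + 4*x*y - 7*x - 8*y + 6) * h2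
  · simp only [addX, addY, negAddY, negY, ha1, ha2, ha3, ha4]
    linear_combination (-2269*x^15 - 11345*x^14 - 24175*x^13 - 2269*x^12*y^2 + 2435*x^12*y - 32103*x^12 - 9076*x^11*y^2 + 9740*x^11*y - 34555*x^11 - 15099*x^10*y^2 + 16149*x^10*y - 32560*x^10 - 82*x^9*y^4 + 166*x^9*y^3 - 12300*x^9*y^2 + 13332*x^9*y - 21866*x^9 - 246*x^8*y^4 + 498*x^8*y^3 - 3439*x^8*y^2 + 4391*x^8*y - 6557*x^8 - 273*x^7*y^4 + 552*x^7*y^3 + 2127*x^7*y^2 - 1374*x^7*y + 2471*x^7 - 82*x^6*y^6 + 84*x^6*y^5 - 277*x^6*y^4 + 314*x^6*y^3 + 1639*x^6*y^2 - 1250*x^6*y + 2034*x^6 - 164*x^5*y^6 + 168*x^5*y^5 - 312*x^5*y^4 + 140*x^5*y^3 - 366*x^5*y^2 + 522*x^5*y - 1092*x^5 - 109*x^4*y^6 + 111*x^4*y^5 - 192*x^4*y^4 + 61*x^4*y^3 - 664*x^4*y^2 + 721*x^4*y - 1397*x^4 - x^3*y^8 + 2*x^3*y^7 - 2*x^3*y^6 + 4*x^3*y^5 - 5*x^3*y^4 + 14*x^3*y^3 - 110*x^3*y^2 + 130*x^3*y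 - 238*x^3 - x^2*y^8 + 2*x^2*y^7 + 22*x^2*y^6 - 20*x^2*y^5 + 37*x^2*y^4 + 2*x^2*y^3 + 68*x^2*y^2 - 54*x^2*y + 120*x^2 + 6*x*y^6 - 6*x*y^5 + 12*x*y^4 - 6*x*y^3 + 28*x*y^2 - 34*x*y + 68*x - y^10 + y^9 - 2*y^8 - 5*y^6 + 5*y^5 - 13*y^4 + 12*y^3 - 29*y^2 + 40*y - 73) * hF + (-10976*x^18 - 65856*x^17 - 175224*x^16 + 2352*x^15*y - 264376*x^15 + 11760*x^14*y - 234738*x^14 + 25032*x^13*y - 101778*x^13 + 30916*x^12*y + 12099*x^12 + 26635*x^11*y + 30881*x^11 + 18573*x^10*y - 3689*x^10 + 10536*x^9*y - 21316*x^9 + 4057*x^8*y - 11290*x^8 + 427*x^7*y + 443*x^7 - 30*x^6*y + 2023*x^6 + 818*x^5*y - 342*x^5 + 749*x^4*y - 834*x^4 + 143*x^3*y - 176*x^3 - 35*x^2*y + 42*x^2 - 44*x*y + 38*x + 54*y - 38) * h2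

theorem super_01110 (E : WeierstrassCurve K) (h2 : (2 : K) = 0)
    (ha1 : E.a₁ = 0) (ha2 : E.a₂ = 1) (ha3 : E.a₃ = 1) (ha4 : E.a₄ = 1) (ha6 : E.a₆ = 0)
    {x y : K} (h : E.toAffine.Nonsingular x y)
    (h4 : E.toAffine.Nonsingular (x ^ 4) (y ^ 4)) :
    Point.some (x ^ 4) (y ^ 4) h4 + (Point.some x y h + Point.some x y h) = 0 := by
  have hF := (equation_iff x y).mp h.1
  rw [ha1, ha2, ha3, ha4, ha6] at hF
  have hη1 : y - E.toAffine.negY x y = 1 := by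
    simp only [negY, ha1, ha3]
    linear_combination (y) * h2
  have hη : y - E.toAffine.negY x y ≠ 0 := by rw [hη1]; exact one_ne_zero
  have hL : (3 * x ^ 2 + 2 * E.a₂ * x + E.a₄ - E.a₁ * y) * (y - E.toAffine.negY x y)
      = 3 * x ^ 2 + 2 * E.a₂ * x + E.a₄ - E.a₁ * y := by rw [hη1, mul_one]
  obtain ⟨hC, e2⟩ := add_self_some h hη hL
  rw [e2]
  refine Point.add_of_Y_eq ?_ ?_
  · simp only [addX, addY, negAddY, negY, ha1, ha2, ha3, ha4]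
    linear_combination (0) * hF + (-4*x^4 - 6*x^3 - 5*x^2 - x) * h2
  · simp only [addX, addY, negAddY, negY, ha1, ha2, ha3, ha4]
    linear_combination (x^3 + x^2 + x + y^2 - y + 1) * hF + (-13*x^6 - 26*x^5 - 30*x^4 - x^3*y - 16*x^3 - x^2*y - 5*x^2 - x*y - y) * h2

theorem super_01111 (E : WeierstrassCurve K) (h2 : (2 : K) = 0)
    (ha1 : E.a₁ = 0) (ha2 : E.a₂ = 1) (ha3 : E.a₃ = 1) (ha4 : E.a₄ = 1) (ha6 : E.a₆ = 1)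
    {x y : K} (h : E.toAffine.Nonsingular x y)
    (h4 : E.toAffine.Nonsingular (x ^ 4) (y ^ 4)) :
    Point.some (x ^ 4) (y ^ 4) h4 + (Point.some x y h + Point.some x y h) = 0 := by
  have hF := (equation_iff x y).mp h.1
  rw [ha1, ha2, ha3, ha4, ha6] at hF
  have hη1 : y - E.toAffine.negY x y = 1 := by
    simp only [negY, ha1, ha3]
    linear_combination (y) * h2
  have hη : y - E.toAffine.negY x y ≠ 0 := by rw [hη1]; exact one_ne_zero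
  have hL : (3 * x ^ 2 + 2 * E.a₂ * x + E.a₄ - E.a₁ * y) * (y - E.toAffine.negY x y)
      = 3 * x ^ 2 + 2 * E.a₂ * x + E.a₄ - E.a₁ * y := by rw [hη1, mul_one]
  obtain ⟨hC, e2⟩ := add_self_some h hη hL
  rw [e2]
  refine Point.add_of_Y_eq ?_ ?_
  · simp only [addX, addY, negAddY, negY, ha1, ha2, ha3, ha4]
    linear_combination (0) * hF + (-4*x^4 - 6*x^3 - 5*x^2 - x) * h2
  · simp only [addX, addY, negAddY, negY, ha1, ha2, ha3, ha4]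
    linear_combination (x^3 + x^2 + x + y^2 - y + 2) * hF + (-13*x^6 - 26*x^5 - 30*x^4 - x^3*y - 15*x^3 - x^2*y - 4*x^2 - x*y + x - 2*y + 1) * h2

end Fermat.Agent.HW.Char2
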