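import Fermat.Agent.HW.Char2.Wrap
import Fermat.Agent.HW.Char2.Super
import Fermat.Agent.HW.Char2.Ord
import Fermat.Agent.HW.Char2.Count2

/-!
# HW brick at `p = 2`: the Frobenius relation `φ² − t φ + 2 = 0` (GENERATED case analysis, helper51)

The 16 nonsingular Weierstrass curves over `ZMod 2`, each with its trace and its explicit
chord/tangent certificate (`Super.lean`, `Ord.lean`).  Together with `HW/Final.lean` (`p ≠ 2`)
this gives the Frobenius relation for every prime `p` (`frobenius_relation_all`).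
-/

set_option autoImplicit false
set_option maxHeartbeats 1600000

open WeierstrassCurve WeierstrassCurve.Affine

namespace Fermat.Agent.HW.Char2

/-- the curve over `ZMod 2` with the given coefficients -/
abbrev cv (a1 a2 a3 a4 a6 : ZMod 2) : WeierstrassCurve (ZMod 2) := ⟨a1, a2, a3, a4, a6⟩

section Cases

variable (K : Type*) [Field K] [DecidableEq K] [Algebra (ZMod 2) K]


theorem trace_00100 : (cv 0 0 1 0 0).traceOfFrobenius = 0 := by
  rw [trace_two]
  decide

theorem rel_00100 (P : (EK 2 (cv 0 0 1 0 0) K).toAffine.Point) :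
    frobPt 2 (cv 0 0 1 0 0) K (frobPt 2 (cv 0 0 1 0 0) K P)
      - (cv 0 0 1 0 0).traceOfFrobenius • frobPt 2 (cv 0 0 1 0 0) K P + (2 : ℤ) • P = 0 := by
  rw [trace_00100]
  exact rel_super0 (cv 0 0 1 0 0) K
    (fun h h4 => super_00100 (EK 2 (cv 0 0 1 0 0) K) (two_eq_zero_of_algebra K)
      (map_zero _) (map_zero _) (map_one _) (map_zero _) (map_zero _) h h4) P


theorem trace_00101 : (cv 0 0 1 0 1).traceOfFrobenius = 0 := by
  rw [trace_two]
  decide

theorem rel_00101 (P : (EK 2 (cv 0 0 1 0 1) K).toAffine.Point) :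
    frobPt 2 (cv 0 0 1 0 1) K (frobPt 2 (cv 0 0 1 0 1) K P)
      - (cv 0 0 1 0 1).traceOfFrobenius • frobPt 2 (cv 0 0 1 0 1) K P + (2 : ℤ) • P = 0 := by
  rw [trace_00101]
  exact rel_super0 (cv 0 0 1 0 1) K
    (fun h h4 => super_00101 (EK 2 (cv 0 0 1 0 1) K) (two_eq_zero_of_algebra K)
      (map_zero _) (map_zero _) (map_one _) (map_zero _) (map_one _) h h4) P


theorem trace_00110 : (cv 0 0 1 1 0).traceOfFrobenius = -2 := by
  rw [trace_two]
  decide

theorem rel_00110 (P : (EK 2 (cv 0 0 1 1 0) K).toAffine.Point) :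
    frobPt 2 (cv 0 0 1 1 0) K (frobPt 2 (cv 0 0 1 1 0) K P)
      - (cv 0 0 1 1 0).traceOfFrobenius • frobPt 2 (cv 0 0 1 1 0) K P + (2 : ℤ) • P = 0 := by
  rw [trace_00110]
  exact rel_superm2 (cv 0 0 1 1 0) K
    (fun h h4 => super_00110 (EK 2 (cv 0 0 1 1 0) K) (two_eq_zero_of_algebra K)
      (map_zero _) (map_zero _) (map_one _) (map_one _) (map_zero _) h h4) P


theorem trace_00111 : (cv 0 0 1 1 1).traceOfFrobenius = 2 := by
  rw [trace_two]
  decide

theorem rel_00111 (P : (EK 2 (cv 0 0 1 1 1) K).toAffine.Point) :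
    frobPt 2 (cv 0 0 1 1 1) K (frobPt 2 (cv 0 0 1 1 1) K P)
      - (cv 0 0 1 1 1).traceOfFrobenius • frobPt 2 (cv 0 0 1 1 1) K P + (2 : ℤ) • P = 0 := by
  rw [trace_00111]
  exact rel_super2 (cv 0 0 1 1 1) K
    (fun h h4 => super_00111 (EK 2 (cv 0 0 1 1 1) K) (two_eq_zero_of_algebra K)
      (map_zero _) (map_zero _) (map_one _) (map_one _) (map_one _) h h4) P


theorem trace_01100 : (cv 0 1 1 0 0).traceOfFrobenius = -2 := by
  rw [trace_two]
  decide

theorem rel_01100 (P : (EK 2 (cv 0 1 1 0 0) K).toAffine.Point) :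
    frobPt 2 (cv 0 1 1 0 0) K (frobPt 2 (cv 0 1 1 0 0) K P)
      - (cv 0 1 1 0 0).traceOfFrobenius • frobPt 2 (cv 0 1 1 0 0) K P + (2 : ℤ) • P = 0 := by
  rw [trace_01100]
  exact rel_superm2 (cv 0 1 1 0 0) K
    (fun h h4 => super_01100 (EK 2 (cv 0 1 1 0 0) K) (two_eq_zero_of_algebra K)
      (map_zero _) (map_one _) (map_one _) (map_zero _) (map_zero _) h h4) P


theorem trace_01101 : (cv 0 1 1 0 1).traceOfFrobenius = 2 := by
  rw [trace_two]
  decide

theorem rel_01101 (P : (EK 2 (cv 0 1 1 0 1) K).toAffine.Point) :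
    frobPt 2 (cv 0 1 1 0 1) K (frobPt 2 (cv 0 1 1 0 1) K P)
      - (cv 0 1 1 0 1).traceOfFrobenius • frobPt 2 (cv 0 1 1 0 1) K P + (2 : ℤ) • P = 0 := by
  rw [trace_01101]
  exact rel_super2 (cv 0 1 1 0 1) K
    (fun h h4 => super_01101 (EK 2 (cv 0 1 1 0 1) K) (two_eq_zero_of_algebra K)
      (map_zero _) (map_one _) (map_one _) (map_zero _) (map_one _) h h4) P


theorem trace_01110 : (cv 0 1 1 1 0).traceOfFrobenius = 0 := by
  rw [trace_two]
  decide

theorem rel_01110 (P : (EK 2 (cv 0 1 1 1 0) K).toAffine.Point) :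
    frobPt 2 (cv 0 1 1 1 0) K (frobPt 2 (cv 0 1 1 1 0) K P)
      - (cv 0 1 1 1 0).traceOfFrobenius • frobPt 2 (cv 0 1 1 1 0) K P + (2 : ℤ) • P = 0 := by
  rw [trace_01110]
  exact rel_super0 (cv 0 1 1 1 0) K
    (fun h h4 => super_01110 (EK 2 (cv 0 1 1 1 0) K) (two_eq_zero_of_algebra K)
      (map_zero _) (map_one _) (map_one _) (map_one _) (map_zero _) h h4) P


theorem trace_01111 : (cv 0 1 1 1 1).traceOfFrobenius = 0 := by
  rw [trace_two]
  decide

theorem rel_01111 (P : (EK 2 (cv 0 1 1 1 1) K).toAffine.Point) :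
    frobPt 2 (cv 0 1 1 1 1) K (frobPt 2 (cv 0 1 1 1 1) K P)
      - (cv 0 1 1 1 1).traceOfFrobenius • frobPt 2 (cv 0 1 1 1 1) K P + (2 : ℤ) • P = 0 := by
  rw [trace_01111]
  exact rel_super0 (cv 0 1 1 1 1) K
    (fun h h4 => super_01111 (EK 2 (cv 0 1 1 1 1) K) (two_eq_zero_of_algebra K)
      (map_zero _) (map_one _) (map_one _) (map_one _) (map_one _) h h4) P


theorem trace_10001 : (cv 1 0 0 0 1).traceOfFrobenius = -1 := by
  rw [trace_two]
  decide

theorem rel_10001 [IsAlgClosed K] (P : (EK 2 (cv 1 0 0 0 1) K).toAffine.Point) :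
    frobPt 2 (cv 1 0 0 0 1) K (frobPt 2 (cv 1 0 0 0 1) K P)
      - (cv 1 0 0 0 1).traceOfFrobenius • frobPt 2 (cv 1 0 0 0 1) K P + (2 : ℤ) • P = 0 := by
  rw [trace_10001]
  refine rel_ord (cv 1 0 0 0 1) K _ (by decide) (fun h hx0 hx1 hφ h4 => ?_) P
  rw [neg_smul, one_smul, sub_neg_eq_add]
  exact ord_10001 (EK 2 (cv 1 0 0 0 1) K) (two_eq_zero_of_algebra K)
    (map_one _) (map_zero _) (map_zero _) (map_zero _) (map_one _) h hx0 hx1 hφ h4


theorem trace_10010 : (cv 1 0 0 1 0).traceOfFrobenius = -1 := by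
  rw [trace_two]
  decide

theorem rel_10010 [IsAlgClosed K] (P : (EK 2 (cv 1 0 0 1 0) K).toAffine.Point) :
    frobPt 2 (cv 1 0 0 1 0) K (frobPt 2 (cv 1 0 0 1 0) K P)
      - (cv 1 0 0 1 0).traceOfFrobenius • frobPt 2 (cv 1 0 0 1 0) K P + (2 : ℤ) • P = 0 := by
  rw [trace_10010]
  refine rel_ord (cv 1 0 0 1 0) K _ (by decide) (fun h hx0 hx1 hφ h4 => ?_) P
  rw [neg_smul, one_smul, sub_neg_eq_add]
  exact ord_10010 (EK 2 (cv 1 0 0 1 0) K) (two_eq_zero_of_algebra K)
    (map_one _) (map_zero _) (map_zero _) (map_one _) (map_zero _) h hx0 hx1 hφ h4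


theorem trace_10101 : (cv 1 0 1 0 1).traceOfFrobenius = 1 := by
  rw [trace_two]
  decide

theorem rel_10101 [IsAlgClosed K] (P : (EK 2 (cv 1 0 1 0 1) K).toAffine.Point) :
    frobPt 2 (cv 1 0 1 0 1) K (frobPt 2 (cv 1 0 1 0 1) K P)
      - (cv 1 0 1 0 1).traceOfFrobenius • frobPt 2 (cv 1 0 1 0 1) K P + (2 : ℤ) • P = 0 := by
  rw [trace_10101]
  refine rel_ord (cv 1 0 1 0 1) K _ (by decide) (fun h hx0 hx1 hφ h4 => ?_) P
  rw [one_smul, sub_eq_add_neg]
  exact ord_10101 (EK 2 (cv 1 0 1 0 1) K) (two_eq_zero_of_algebra K)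
    (map_one _) (map_zero _) (map_one _) (map_zero _) (map_one _) h hx0 hx1 hφ h4


theorem trace_10111 : (cv 1 0 1 1 1).traceOfFrobenius = 1 := by
  rw [trace_two]
  decide

theorem rel_10111 [IsAlgClosed K] (P : (EK 2 (cv 1 0 1 1 1) K).toAffine.Point) :
    frobPt 2 (cv 1 0 1 1 1) K (frobPt 2 (cv 1 0 1 1 1) K P)
      - (cv 1 0 1 1 1).traceOfFrobenius • frobPt 2 (cv 1 0 1 1 1) K P + (2 : ℤ) • P = 0 := by
  rw [trace_10111]
  refine rel_ord (cv 1 0 1 1 1) K _ (by decide) (fun h hx0 hx1 hφ h4 => ?_) P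
  rw [one_smul, sub_eq_add_neg]
  exact ord_10111 (EK 2 (cv 1 0 1 1 1) K) (two_eq_zero_of_algebra K)
    (map_one _) (map_zero _) (map_one _) (map_one _) (map_one _) h hx0 hx1 hφ h4


theorem trace_11001 : (cv 1 1 0 0 1).traceOfFrobenius = 1 := by
  rw [trace_two]
  decide

theorem rel_11001 [IsAlgClosed K] (P : (EK 2 (cv 1 1 0 0 1) K).toAffine.Point) :
    frobPt 2 (cv 1 1 0 0 1) K (frobPt 2 (cv 1 1 0 0 1) K P)
      - (cv 1 1 0 0 1).traceOfFrobenius • frobPt 2 (cv 1 1 0 0 1) K P + (2 : ℤ) • P = 0 := by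
  rw [trace_11001]
  refine rel_ord (cv 1 1 0 0 1) K _ (by decide) (fun h hx0 hx1 hφ h4 => ?_) P
  rw [one_smul, sub_eq_add_neg]
  exact ord_11001 (EK 2 (cv 1 1 0 0 1) K) (two_eq_zero_of_algebra K)
    (map_one _) (map_one _) (map_zero _) (map_zero _) (map_one _) h hx0 hx1 hφ h4


theorem trace_11010 : (cv 1 1 0 1 0).traceOfFrobenius = 1 := by
  rw [trace_two]
  decide

theorem rel_11010 [IsAlgClosed K] (P : (EK 2 (cv 1 1 0 1 0) K).toAffine.Point) :
    frobPt 2 (cv 1 1 0 1 0) K (frobPt 2 (cv 1 1 0 1 0) K P)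
      - (cv 1 1 0 1 0).traceOfFrobenius • frobPt 2 (cv 1 1 0 1 0) K P + (2 : ℤ) • P = 0 := by
  rw [trace_11010]
  refine rel_ord (cv 1 1 0 1 0) K _ (by decide) (fun h hx0 hx1 hφ h4 => ?_) P
  rw [one_smul, sub_eq_add_neg]
  exact ord_11010 (EK 2 (cv 1 1 0 1 0) K) (two_eq_zero_of_algebra K)
    (map_one _) (map_one _) (map_zero _) (map_one _) (map_zero _) h hx0 hx1 hφ h4


theorem trace_11100 : (cv 1 1 1 0 0).traceOfFrobenius = -1 := by
  rw [trace_two]
  decide

theorem rel_11100 [IsAlgClosed K] (P : (EK 2 (cv 1 1 1 0 0) K).toAffine.Point) :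
    frobPt 2 (cv 1 1 1 0 0) K (frobPt 2 (cv 1 1 1 0 0) K P)
      - (cv 1 1 1 0 0).traceOfFrobenius • frobPt 2 (cv 1 1 1 0 0) K P + (2 : ℤ) • P = 0 := by
  rw [trace_11100]
  refine rel_ord (cv 1 1 1 0 0) K _ (by decide) (fun h hx0 hx1 hφ h4 => ?_) P
  rw [neg_smul, one_smul, sub_neg_eq_add]
  exact ord_11100 (EK 2 (cv 1 1 1 0 0) K) (two_eq_zero_of_algebra K)
    (map_one _) (map_one _) (map_one _) (map_zero _) (map_zero _) h hx0 hx1 hφ h4


theorem trace_11110 : (cv 1 1 1 1 0).traceOfFrobenius = -1 := by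
  rw [trace_two]
  decide

theorem rel_11110 [IsAlgClosed K] (P : (EK 2 (cv 1 1 1 1 0) K).toAffine.Point) :
    frobPt 2 (cv 1 1 1 1 0) K (frobPt 2 (cv 1 1 1 1 0) K P)
      - (cv 1 1 1 1 0).traceOfFrobenius • frobPt 2 (cv 1 1 1 1 0) K P + (2 : ℤ) • P = 0 := by
  rw [trace_11110]
  refine rel_ord (cv 1 1 1 1 0) K _ (by decide) (fun h hx0 hx1 hφ h4 => ?_) P
  rw [neg_smul, one_smul, sub_neg_eq_add]
  exact ord_11110 (EK 2 (cv 1 1 1 1 0) K) (two_eq_zero_of_algebra K)
    (map_one _) (map_one _) (map_one _) (map_one _) (map_zero _) h hx0 hx1 hφ h4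


/-- **Frobenius relation at `p = 2`** for `frobPt`. -/
theorem frobPt_relation_two (W : WeierstrassCurve (ZMod 2)) (hΔ : W.Δ ≠ 0) [IsAlgClosed K]
    (P : (EK 2 W K).toAffine.Point) :
    frobPt 2 W K (frobPt 2 W K P) - W.traceOfFrobenius • frobPt 2 W K P + (2 : ℤ) • P = 0 := by
  obtain ⟨a1, a2, a3, a4, a6⟩ := W
  rcases zmod2_cases a1 with rfl | rfl <;> rcases zmod2_cases a2 with rfl | rfl <;>
    rcases zmod2_cases a3 with rfl | rfl <;> rcases zmod2_cases a4 with rfl | rfl <;>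
    rcases zmod2_cases a6 with rfl | rfl
  · exact absurd (by decide) hΔ
  · exact absurd (by decide) hΔ
  · exact absurd (by decide) hΔ
  · exact absurd (by decide) hΔ
  · exact rel_00100 K P
  · exact rel_00101 K P
  · exact rel_00110 K P
  · exact rel_00111 K P
  · exact absurd (by decide) hΔ
  · exact absurd (by decide) hΔ
  · exact absurd (by decide) hΔ
  · exact absurd (by decide) hΔ
  · exact rel_01100 K P
  · exact rel_01101 K P
  · exact rel_01110 K P
  · exact rel_01111 K P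
  · exact absurd (by decide) hΔ
  · exact rel_10001 K P
  · exact rel_10010 K P
  · exact absurd (by decide) hΔ
  · exact absurd (by decide) hΔ
  · exact rel_10101 K P
  · exact absurd (by decide) hΔ
  · exact rel_10111 K P
  · exact absurd (by decide) hΔ
  · exact rel_11001 K P
  · exact rel_11010 K P
  · exact absurd (by decide) hΔ
  · exact rel_11100 K P
  · exact absurd (by decide) hΔ
  · exact rel_11110 K P
  · exact absurd (by decide) hΔ

end Cases

end Fermat.Agent.HW.Char2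

namespace Fermat.Agent.HW

section All

/-- **Frobenius relation at `p = 2`** on points, with Mathlib's `Point.map` of the Frobenius
`x ↦ x ^ 2` of `K` and the prelude's `traceOfFrobenius`. -/
theorem frobenius_relation_two (W : WeierstrassCurve (ZMod 2))
    (K : Type*) [Field K] [DecidableEq K] [Algebra (ZMod 2) K] (hΔ : W.Δ ≠ 0) [IsAlgClosed K]
    (P : (WeierstrassCurve.Affine.baseChange W K).Point) :
    WeierstrassCurve.Affine.Point.map (W' := W) (FiniteField.frobeniusAlgHom (ZMod 2) K)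
        (WeierstrassCurve.Affine.Point.map (W' := W) (FiniteField.frobeniusAlgHom (ZMod 2) K) P)
      - W.traceOfFrobenius •
        WeierstrassCurve.Affine.Point.map (W' := W) (FiniteField.frobeniusAlgHom (ZMod 2) K) P
      + (2 : ℤ) • P = 0 :=
  Char2.frobPt_relation_two K W hΔ P

variable (p : ℕ) [Fact p.Prime] (W : WeierstrassCurve (ZMod p))
  (K : Type*) [Field K] [DecidableEq K] [Algebra (ZMod p) K]

/-- **Frobenius relation, every prime `p`** (including `p = 2`): for a Weierstrass curve `W`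
over `ZMod p` with `Δ ≠ 0`, `K ⊇ ZMod p` algebraically closed and `P ∈ E(K)`:
`φ(φ P) − t • φ P + p • P = 0`, `t = W.traceOfFrobenius`. -/
theorem frobPt_relation_all (hΔ : W.Δ ≠ 0) [IsAlgClosed K] (P : (EK p W K).toAffine.Point) :
    frobPt p W K (frobPt p W K P) - W.traceOfFrobenius • frobPt p W K P + (p : ℤ) • P = 0 := by
  by_cases hp2 : p = 2
  · subst hp2
    exact Char2.frobPt_relation_two K W hΔ P
  · exact frobPt_relation_apply p W K hp2 hΔ P

/-- **Frobenius relation, every prime `p`**, Mathlib form. -/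
theorem frobenius_relation_all (hΔ : W.Δ ≠ 0) [IsAlgClosed K]
    (P : (WeierstrassCurve.Affine.baseChange W K).Point) :
    WeierstrassCurve.Affine.Point.map (W' := W) (FiniteField.frobeniusAlgHom (ZMod p) K)
        (WeierstrassCurve.Affine.Point.map (W' := W) (FiniteField.frobeniusAlgHom (ZMod p) K) P)
      - W.traceOfFrobenius •
        WeierstrassCurve.Affine.Point.map (W' := W) (FiniteField.frobeniusAlgHom (ZMod p) K) P
      + (p : ℤ) • P = 0 :=
  frobPt_relation_all p W K hΔ P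

/-- the relation in `End E(K)`, every prime `p` -/
theorem frobPt_relation_end_all (hΔ : W.Δ ≠ 0) [IsAlgClosed K] :
    frobPt p W K * frobPt p W K - W.traceOfFrobenius • frobPt p W K
      + (p : ℤ) • (1 : AddMonoid.End (EK p W K).toAffine.Point) = 0 := by
  ext P
  exact frobPt_relation_all p W K hΔ P

end All

end Fermat.Agent.HW
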