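import Fermat.Agent.HW.Final

/-!
# HW brick at `p = 2`: general lemmas (helper51)

The Frobenius relation for the 16 nonsingular Weierstrass curves over `ZMod 2` is verified by
explicit chord/tangent computations (`Fermat/Agent/HW/Char2/Cases*.lean`, generated certificates).
This file has the point-level lemmas used by all cases.
-/

set_option autoImplicit false

open WeierstrassCurve WeierstrassCurve.Affine

namespace Fermat.Agent.HW.Char2

section General

variable {K : Type*} [Field K] [DecidableEq K] {E : WeierstrassCurve K}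

omit [DecidableEq K] in
theorem some_eq {x y x' y' : K} {h : E.toAffine.Nonsingular x y}
    {h' : E.toAffine.Nonsingular x' y'} (hx : x = x') (hy : y = y') :
    Point.some x y h = Point.some x' y' h' := by
  subst hx hy
  rfl

/-- tangent: `P + P` with a given slope `L`, `L * (y - negY x y) = 3x² + 2a₂x + a₄ - a₁y` -/
theorem add_self_some {x y L : K} (h : E.toAffine.Nonsingular x y)
    (hη : y - E.toAffine.negY x y ≠ 0)
    (hL : L * (y - E.toAffine.negY x y) = 3 * x ^ 2 + 2 * E.a₂ * x + E.a₄ - E.a₁ * y) :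
    ∃ h' : E.toAffine.Nonsingular (E.toAffine.addX x x L) (E.toAffine.addY x x y L),
      Point.some x y h + Point.some x y h = Point.some _ _ h' := by
  have hy : y ≠ E.toAffine.negY x y := fun e => hη (sub_eq_zero.mpr e)
  have hs : E.toAffine.slope x x y y = L := by
    rw [slope_of_Y_ne rfl hy, div_eq_iff hη, hL]
  have h0 := nonsingular_add h h (fun hxy => hy hxy.right)
  rw [hs] at h0
  refine ⟨h0, ?_⟩
  rw [Point.add_self_of_Y_ne hy]
  exact some_eq (by rw [hs]) (by rw [hs])

/-- chord: `P₁ + P₂` with a given slope `M`, `M * (x₁ - x₂) = y₁ - y₂` -/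
theorem add_some_some {x₁ y₁ x₂ y₂ M : K} (h₁ : E.toAffine.Nonsingular x₁ y₁)
    (h₂ : E.toAffine.Nonsingular x₂ y₂) (hd : x₁ - x₂ ≠ 0) (hM : M * (x₁ - x₂) = y₁ - y₂) :
    ∃ h' : E.toAffine.Nonsingular (E.toAffine.addX x₁ x₂ M) (E.toAffine.addY x₁ x₂ y₁ M),
      Point.some x₁ y₁ h₁ + Point.some x₂ y₂ h₂ = Point.some _ _ h' := by
  have hx : x₁ ≠ x₂ := fun e => hd (sub_eq_zero.mpr e)
  have hs : E.toAffine.slope x₁ x₂ y₁ y₂ = M := by
    rw [slope_of_X_ne hx, div_eq_iff hd, hM]
  have h0 := nonsingular_add h₁ h₂ (fun hxy => hx hxy.left)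
  rw [hs] at h0
  refine ⟨h0, ?_⟩
  rw [Point.add_of_X_ne hx]
  exact some_eq (by rw [hs]) (by rw [hs])

/-- an endomorphism of an infinite commutative group that vanishes off a finite set is zero -/
theorem eq_zero_of_cofinite {G : Type*} [AddCommGroup G] [Infinite G] (ψ : G →+ G)
    {Bad : Set G} (hBad : Bad.Finite) (h : ∀ g, g ∉ Bad → ψ g = 0) (g : G) : ψ g = 0 := by
  obtain ⟨u, v, hu, hv, rfl⟩ := rb_exists_add hBad g
  rw [map_add, h u hu, h v hv, add_zero]

end General

section Frob

variable (p : ℕ) [Fact p.Prime] (W : WeierstrassCurve (ZMod p))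
  (K : Type*) [Field K] [DecidableEq K] [Algebra (ZMod p) K]

theorem frobPt_some {x y : K} (h : (EK p W K).toAffine.Nonsingular x y) :
    ∃ h' : (EK p W K).toAffine.Nonsingular (x ^ p) (y ^ p),
      frobPt p W K (Point.some x y h) = Point.some (x ^ p) (y ^ p) h' := by
  have hx : FiniteField.frobeniusAlgHom (ZMod p) K x = x ^ p := RepFrob.frob_apply p K x
  have hy : FiniteField.frobeniusAlgHom (ZMod p) K y = y ^ p := RepFrob.frob_apply p K y
  have h0 : (EK p W K).toAffine.Nonsingular (FiniteField.frobeniusAlgHom (ZMod p) K x)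
      (FiniteField.frobeniusAlgHom (ZMod p) K y) :=
    (W.toAffine.baseChange_nonsingular
      (FiniteField.frobeniusAlgHom (ZMod p) K).injective x y).mpr h
  have h1 : (EK p W K).toAffine.Nonsingular (x ^ p) (y ^ p) := by
    rw [← hx, ← hy]; exact h0
  refine ⟨h1, ?_⟩
  have e : frobPt p W K (Point.some x y h) = Point.some _ _ h0 := rfl
  rw [e]
  exact some_eq hx hy

theorem two_eq_zero_of_algebra (K : Type*) [Field K] [Algebra (ZMod 2) K] : (2 : K) = 0 := by
  have hchar : CharP K 2 := charP_of_injective_algebraMap (algebraMap (ZMod 2) K).injective 2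
  have := CharP.cast_eq_zero K 2
  exact_mod_cast this

end Frob

end Fermat.Agent.HW.Char2
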