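import Fermat.Agent.HW.Char2.Basic

/-!
# HW brick at `p = 2`: from chord/tangent identities to the Frobenius relation (helper51)
-/

set_option autoImplicit false

open WeierstrassCurve WeierstrassCurve.Affine

namespace Fermat.Agent.HW.Char2

section Wrap

variable (W : WeierstrassCurve (ZMod 2)) (K : Type*) [Field K] [DecidableEq K]
  [Algebra (ZMod 2) K]

/-- `φ(x,y) = (x²,y²)` and `φ(φ(x,y)) = (x⁴,y⁴)` -/
theorem frobPt_frobPt_some {x y : K} (h : (EK 2 W K).toAffine.Nonsingular x y) :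
    ∃ (hφ : (EK 2 W K).toAffine.Nonsingular (x ^ 2) (y ^ 2))
      (h4 : (EK 2 W K).toAffine.Nonsingular (x ^ 4) (y ^ 4)),
      frobPt 2 W K (Point.some x y h) = Point.some _ _ hφ ∧
      frobPt 2 W K (frobPt 2 W K (Point.some x y h)) = Point.some _ _ h4 := by
  obtain ⟨hφ, e1⟩ := frobPt_some 2 W K h
  obtain ⟨h4', e2⟩ := frobPt_some 2 W K hφ
  have ex : (x ^ 2) ^ 2 = x ^ 4 := by ring
  have ey : (y ^ 2) ^ 2 = y ^ 4 := by ring
  have h4 : (EK 2 W K).toAffine.Nonsingular (x ^ 4) (y ^ 4) := by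
    rw [← ex, ← ey]; exact h4'
  refine ⟨hφ, h4, e1, ?_⟩
  rw [e1, e2]
  exact some_eq ex ey

theorem rel_at_zero (t : ℤ) :
    frobPt 2 W K (frobPt 2 W K 0) - t • frobPt 2 W K 0
      + (2 : ℤ) • (0 : (EK 2 W K).toAffine.Point) = 0 := by
  rw [map_zero, map_zero, smul_zero, smul_zero, sub_zero, add_zero]

/-- supersingular, `t = 0` -/
theorem rel_super0
    (hsup : ∀ {x y : K} (h : (EK 2 W K).toAffine.Nonsingular x y)
      (h4 : (EK 2 W K).toAffine.Nonsingular (x ^ 4) (y ^ 4)),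
      Point.some (x ^ 4) (y ^ 4) h4 + (Point.some x y h + Point.some x y h) = 0)
    (P : (EK 2 W K).toAffine.Point) :
    frobPt 2 W K (frobPt 2 W K P) - (0 : ℤ) • frobPt 2 W K P + (2 : ℤ) • P = 0 := by
  cases P with
  | zero => exact rel_at_zero W K 0
  | some x y h =>
    obtain ⟨hφ, h4, e1, e2⟩ := frobPt_frobPt_some W K h
    rw [e2, zero_smul, sub_zero, two_zsmul]
    exact hsup h h4

/-- supersingular, `t = 2` -/
theorem rel_super2
    (hsup : ∀ {x y : K} (h : (EK 2 W K).toAffine.Nonsingular x y)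
      (h4 : (EK 2 W K).toAffine.Nonsingular (x ^ 4) (y ^ 4)),
      ∃ (X Y : K) (hC : (EK 2 W K).toAffine.Nonsingular X Y),
        Point.some x y h + Point.some x y h = Point.some X Y hC ∧
        ∀ hQ : (EK 2 W K).toAffine.Nonsingular (X ^ 2) (Y ^ 2),
          Point.some (x ^ 4) (y ^ 4) h4 + Point.some X Y hC = Point.some _ _ hQ)
    (P : (EK 2 W K).toAffine.Point) :
    frobPt 2 W K (frobPt 2 W K P) - (2 : ℤ) • frobPt 2 W K P + (2 : ℤ) • P = 0 := by
  cases P with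
  | zero => exact rel_at_zero W K 2
  | some x y h =>
    obtain ⟨hφ, h4, e1, e2⟩ := frobPt_frobPt_some W K h
    obtain ⟨X, Y, hC, eC, hQ⟩ := hsup h h4
    obtain ⟨hQ', eQ⟩ := frobPt_some 2 W K hC
    have e3 : (2 : ℤ) • frobPt 2 W K (Point.some x y h) = Point.some _ _ hQ' := by
      rw [← map_zsmul, two_zsmul, eC, eQ]
    rw [e2, e3, two_zsmul, eC, sub_add_eq_add_sub, hQ hQ', sub_self]

/-- supersingular, `t = -2` -/
theorem rel_superm2
    (hsup : ∀ {x y : K} (h : (EK 2 W K).toAffine.Nonsingular x y)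
      (h4 : (EK 2 W K).toAffine.Nonsingular (x ^ 4) (y ^ 4)),
      ∃ (X Y : K) (hC : (EK 2 W K).toAffine.Nonsingular X Y),
        Point.some x y h + Point.some x y h = Point.some X Y hC ∧
        ∀ hQ : (EK 2 W K).toAffine.Nonsingular (X ^ 2) (Y ^ 2),
          Point.some (x ^ 4) (y ^ 4) h4 + Point.some X Y hC = -Point.some _ _ hQ)
    (P : (EK 2 W K).toAffine.Point) :
    frobPt 2 W K (frobPt 2 W K P) - (-2 : ℤ) • frobPt 2 W K P + (2 : ℤ) • P = 0 := by
  cases P with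
  | zero => exact rel_at_zero W K (-2)
  | some x y h =>
    obtain ⟨hφ, h4, e1, e2⟩ := frobPt_frobPt_some W K h
    obtain ⟨X, Y, hC, eC, hQ⟩ := hsup h h4
    obtain ⟨hQ', eQ⟩ := frobPt_some 2 W K hC
    have e3 : (2 : ℤ) • frobPt 2 W K (Point.some x y h) = Point.some _ _ hQ' := by
      rw [← map_zsmul, two_zsmul, eC, eQ]
    rw [e2, neg_smul, sub_neg_eq_add, e3, two_zsmul, eC, add_right_comm, hQ hQ',
      neg_add_cancel]

/-- the endomorphism `φ² − tφ + 2` -/
noncomputable def relEnd (t : ℤ) : AddMonoid.End (EK 2 W K).toAffine.Point :=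
  frobPt 2 W K * frobPt 2 W K - t • frobPt 2 W K + (2 : ℤ) • 1

theorem relEnd_apply (t : ℤ) (P : (EK 2 W K).toAffine.Point) :
    relEnd W K t P = frobPt 2 W K (frobPt 2 W K P) - t • frobPt 2 W K P + (2 : ℤ) • P := rfl

theorem infinite_points (hΔ : W.Δ ≠ 0) [hK : IsAlgClosed K] :
    Infinite (EK 2 W K).toAffine.Point := by
  have hKinf : Infinite K := IsAlgClosed.instInfinite
  refine rb_infinite_points (EK 2 W K) (cp_stmtExistsPt (EK 2 W K) hK ?_)
  rw [WeierstrassCurve.map_Δ]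
  exact fun h => hΔ ((algebraMap (ZMod 2) K).injective (by rw [h, map_zero]))

/-- ordinary: the relation at the points with `x ∉ {0, 1}` implies the relation -/
theorem rel_ord (t : ℤ) (hΔ : W.Δ ≠ 0) [hK : IsAlgClosed K]
    (hord : ∀ {x y : K} (h : (EK 2 W K).toAffine.Nonsingular x y), x ≠ 0 → x ≠ 1 →
      ∀ (hφ : (EK 2 W K).toAffine.Nonsingular (x ^ 2) (y ^ 2))
        (h4 : (EK 2 W K).toAffine.Nonsingular (x ^ 4) (y ^ 4)),
      Point.some (x ^ 4) (y ^ 4) h4 - t • Point.some (x ^ 2) (y ^ 2) hφ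
        + (Point.some x y h + Point.some x y h) = 0)
    (P : (EK 2 W K).toAffine.Point) :
    frobPt 2 W K (frobPt 2 W K P) - t • frobPt 2 W K P + (2 : ℤ) • P = 0 := by
  have hInf := infinite_points W K hΔ
  have hBad : {P : (EK 2 W K).toAffine.Point | ptX (EK 2 W K) P ∈ ({0, 1} : Set K)}.Finite :=
    finite_ptX_mem (EK 2 W K) (cp_stmtFiberPt (EK 2 W K)) (Set.toFinite _)
  change relEnd W K t P = 0
  refine eq_zero_of_cofinite (relEnd W K t) hBad (fun Q hQ => ?_) P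
  change frobPt 2 W K (frobPt 2 W K Q) - t • frobPt 2 W K Q + (2 : ℤ) • Q = 0
  cases Q with
  | zero => exact rel_at_zero W K t
  | some x y h =>
    have hx0 : x ≠ 0 := fun e => hQ (by
      show x ∈ ({0, 1} : Set K)
      rw [e]; exact Set.mem_insert _ _)
    have hx1 : x ≠ 1 := fun e => hQ (by
      show x ∈ ({0, 1} : Set K)
      rw [e]; exact Set.mem_insert_of_mem _ rfl)
    obtain ⟨hφ, h4, e1, e2⟩ := frobPt_frobPt_some W K h
    rw [e2, e1, two_zsmul]
    exact hord h hx0 hx1 hφ h4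

end Wrap

end Fermat.Agent.HW.Char2
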